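import Fermat.Agent.KummerFLT.ClassNumber

/-!
The rings of integers of the cyclotomic fields of conductor `7`, `11` and `13` are principal.
-/

set_option autoImplicit false

open Polynomial NumberField

namespace Fermat.Agent.KummerFLT

section bound

variable (p : ℕ) [hp : Fact p.Prime] (K : Type*) [Field K] [NumberField K]
  [hK : IsCyclotomicExtension {p} ℚ K]

lemma minkowski_lt (hp3 : 2 < p) (s B : ℝ) (hs : 0 ≤ s) (hs2 : (p : ℝ) ^ (p - 2) ≤ s ^ 2)
    (hB : (200 / 157) ^ ((p - 1) / 2) *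
      (((p - 1).factorial : ℝ) / ((p - 1 : ℕ) : ℝ) ^ (p - 1) * s) < B) :
    (4 / Real.pi) ^ InfinitePlace.nrComplexPlaces K *
      ((Module.finrank ℚ K).factorial / (Module.finrank ℚ K) ^ (Module.finrank ℚ K) *
        √|(NumberField.discr K : ℝ)|) < B := by
  have hfin : Module.finrank ℚ K = p - 1 := by
    rw [IsCyclotomicExtension.finrank (n := p) K
      (cyclotomic.irreducible_rat hp.out.pos), Nat.totient_prime hp.out]
  have hdiscr : |(NumberField.discr K : ℝ)| = (p : ℝ) ^ (p - 2) := by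
    have h1 := IsCyclotomicExtension.Rat.discr_prime p K
    rw [h1]
    push_cast
    rw [abs_mul, abs_pow, abs_neg, abs_one, one_pow, one_mul, abs_pow, abs_of_nonneg (by positivity)]
  rw [hfin, hdiscr, IsCyclotomicExtension.Rat.nrComplexPlaces_eq_totient_div_two p,
    Nat.totient_prime hp.out]
  refine lt_of_le_of_lt ?_ hB
  have hpi : (4 / Real.pi) ≤ 200 / 157 := by
    rw [div_le_div_iff₀ Real.pi_pos (by norm_num)]
    have := Real.pi_gt_d2
    linarith
  have hsq : √((p : ℝ) ^ (p - 2)) ≤ s := Real.sqrt_le_iff.mpr ⟨hs, hs2⟩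
  have h4 : 0 ≤ 4 / Real.pi := by positivity
  gcongr

theorem pid_of_bound (B : ℕ)
    (hM : (4 / Real.pi) ^ InfinitePlace.nrComplexPlaces K *
      ((Module.finrank ℚ K).factorial / (Module.finrank ℚ K) ^ (Module.finrank ℚ K) *
        √|(NumberField.discr K : ℝ)|) < (B : ℝ) + 1)
    (h : ∀ q : ℕ, q ≤ B → q.Prime → q ≠ p →
      (∃ f, B < q ^ f ∧ ∀ k, 0 < k → k < f → q ^ k % p ≠ 1) ∨
      (∀ P : Ideal (𝓞 K), P.IsPrime → (q : 𝓞 K) ∈ P → Submodule.IsPrincipal P)) :
    IsPrincipalIdealRing (𝓞 K) := by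
  have : IsGalois ℚ K := IsCyclotomicExtension.isGalois {p} ℚ K
  apply RingOfIntegers.isPrincipalIdealRing_of_isPrincipal_of_lt_or_isPrincipal_of_mem_primesOver_of_mem_Icc
  have hfloor : ⌊(4 / Real.pi) ^ InfinitePlace.nrComplexPlaces K *
      ((Module.finrank ℚ K).factorial / (Module.finrank ℚ K) ^ (Module.finrank ℚ K) *
        √|(NumberField.discr K : ℝ)|)⌋₊ ≤ B := by
    rw [← Nat.lt_succ_iff, Nat.floor_lt (by positivity)]
    push_cast
    exact hM
  intro q hq hqp
  rw [Finset.mem_Icc] at hq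
  obtain ⟨P, hP, hPprime, hqP⟩ := exists_primesOver K q hqp
  refine ⟨P, hP, ?_⟩
  by_cases hqp' : q = p
  · subst hqp'
    exact Or.inr (principal_above_p q K P hP)
  · rcases h q (hq.2.trans hfloor) hqp hqp' with ⟨f, hf, hk⟩ | h1
    · left
      exact hfloor.trans_lt (lt_pow_inertiaDeg p K q hqp hqp' B f hf hk P hP)
    · right
      exact h1 P hPprime hqP

end bound

lemma prime11_23 (K : Type*) [Field K] [NumberField K] [IsCyclotomicExtension {11} ℚ K]
    (P : Ideal (𝓞 K)) (hP : P.IsPrime) (hq : ((23 : ℕ) : 𝓞 K) ∈ P) : Submodule.IsPrincipal P := by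
  have : Fact (Nat.Prime 11) := ⟨by norm_num⟩
  refine principal_deg_one (IsCyclotomicExtension.zeta_spec 11 ℚ K) P 23 (by norm_num)
    (by norm_num) hq 4 (by norm_num) (by norm_num) (1 + X + X ^ 3 : ℤ[X]) ?_ ?_ ?_
  · simp only [eval_add, eval_sub, eval_one, eval_X, eval_pow]; norm_num
  · intro z hz
    have h0 := hz.geom_sum_eq_zero (by norm_num)
    simp only [Finset.sum_range_succ, Finset.sum_range_zero, zero_add, pow_zero, pow_one] at h0
    refine ⟨(-2) + (-14) * z + (-17) * z ^ 2 + (-12) * z ^ 3 + (-5) * z ^ 4 + (-9) * z ^ 5 + (-10) * z ^ 6 + (-16) * z ^ 7 + (-6) * z ^ 8 + (-15) * z ^ 9, ?_⟩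
    simp only [map_add, map_sub, map_one, aeval_X, map_pow]
    push_cast
    linear_combination (-((-25) + 9 * z + (-15) * z ^ 2)) * h0
  · intro z hz
    have h0 := hz.geom_sum_eq_zero (by norm_num)
    simp only [Finset.sum_range_succ, Finset.sum_range_zero, zero_add, pow_zero, pow_one] at h0
    refine ⟨1 + 3 * z + 3 * z ^ 2 + 2 * z ^ 3 + 1 * z ^ 4 + 2 * z ^ 5 + 2 * z ^ 6 + 3 * z ^ 7 + 1 * z ^ 8 + 3 * z ^ 9, ?_⟩
    simp only [map_add, map_sub, map_one, aeval_X, map_pow]
    push_cast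
    linear_combination (-(5 + (-2) * z + 3 * z ^ 2)) * h0

lemma prime13_53 (K : Type*) [Field K] [NumberField K] [IsCyclotomicExtension {13} ℚ K]
    (P : Ideal (𝓞 K)) (hP : P.IsPrime) (hq : ((53 : ℕ) : 𝓞 K) ∈ P) : Submodule.IsPrincipal P := by
  have : Fact (Nat.Prime 13) := ⟨by norm_num⟩
  refine principal_deg_one (IsCyclotomicExtension.zeta_spec 13 ℚ K) P 53 (by norm_num)
    (by norm_num) hq 36 (by norm_num) (by norm_num) (1 + X + X ^ 3 : ℤ[X]) ?_ ?_ ?_
  · simp only [eval_add, eval_sub, eval_one, eval_X, eval_pow]; norm_num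
  · intro z hz
    have h0 := hz.geom_sum_eq_zero (by norm_num)
    simp only [Finset.sum_range_succ, Finset.sum_range_zero, zero_add, pow_zero, pow_one] at h0
    refine ⟨1 + (-24) * z + (-35) * z ^ 2 + (-25) * z ^ 3 + (-10) * z ^ 4 + (-14) * z ^ 5 + (-20) * z ^ 6 + (-29) * z ^ 7 + (-16) * z ^ 8 + (-23) * z ^ 9 + (-7) * z ^ 10 + (-36) * z ^ 11, ?_⟩
    simp only [map_add, map_sub, map_one, aeval_X, map_pow]
    push_cast
    linear_combination (-((-52) + 29 * z + (-36) * z ^ 2)) * h0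
  · intro z hz
    have h0 := hz.geom_sum_eq_zero (by norm_num)
    simp only [Finset.sum_range_succ, Finset.sum_range_zero, zero_add, pow_zero, pow_one] at h0
    refine ⟨17 * z + 24 * z ^ 2 + 17 * z ^ 3 + 7 * z ^ 4 + 10 * z ^ 5 + 14 * z ^ 6 + 20 * z ^ 7 + 11 * z ^ 8 + 16 * z ^ 9 + 5 * z ^ 10 + 25 * z ^ 11, ?_⟩
    simp only [map_add, map_sub, map_one, aeval_X, map_pow]
    push_cast
    linear_combination (-(36 + (-20) * z + 25 * z ^ 2)) * h0

lemma prime13_131 (K : Type*) [Field K] [NumberField K] [IsCyclotomicExtension {13} ℚ K]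
    (P : Ideal (𝓞 K)) (hP : P.IsPrime) (hq : ((131 : ℕ) : 𝓞 K) ∈ P) : Submodule.IsPrincipal P := by
  have : Fact (Nat.Prime 13) := ⟨by norm_num⟩
  refine principal_deg_one (IsCyclotomicExtension.zeta_spec 13 ℚ K) P 131 (by norm_num)
    (by norm_num) hq 80 (by norm_num) (by norm_num) (1 - X - X ^ 3 : ℤ[X]) ?_ ?_ ?_
  · simp only [eval_add, eval_sub, eval_one, eval_X, eval_pow]; norm_num
  · intro z hz
    have h0 := hz.geom_sum_eq_zero (by norm_num)
    simp only [Finset.sum_range_succ, Finset.sum_range_zero, zero_add, pow_zero, pow_one] at h0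
    refine ⟨111 + 78 * z + 17 * z ^ 2 + 67 * z ^ 3 + 84 * z ^ 4 + 40 * z ^ 5 + 46 * z ^ 6 + 69 * z ^ 7 + 48 * z ^ 8 + 33 * z ^ 9 + 41 * z ^ 10 + 28 * z ^ 11, ?_⟩
    simp only [map_add, map_sub, map_one, aeval_X, map_pow]
    push_cast
    linear_combination (-((-20) + (-13) * z + (-28) * z ^ 2)) * h0
  · intro z hz
    have h0 := hz.geom_sum_eq_zero (by norm_num)
    simp only [Finset.sum_range_succ, Finset.sum_range_zero, zero_add, pow_zero, pow_one] at h0
    refine ⟨(-68) + (-47) * z + (-10) * z ^ 2 + (-41) * z ^ 3 + (-51) * z ^ 4 + (-24) * z ^ 5 + (-28) * z ^ 6 + (-42) * z ^ 7 + (-29) * z ^ 8 + (-20) * z ^ 9 + (-25) * z ^ 10 + (-17) * z ^ 11, ?_⟩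
    simp only [map_add, map_sub, map_one, aeval_X, map_pow]
    push_cast
    linear_combination (-(12 + 8 * z + 17 * z ^ 2)) * h0

lemma prime13_79 (K : Type*) [Field K] [NumberField K] [IsCyclotomicExtension {13} ℚ K]
    (P : Ideal (𝓞 K)) (hP : P.IsPrime) (hq : ((79 : ℕ) : 𝓞 K) ∈ P) : Submodule.IsPrincipal P := by
  have : Fact (Nat.Prime 13) := ⟨by norm_num⟩
  refine principal_deg_one (IsCyclotomicExtension.zeta_spec 13 ℚ K) P 79 (by norm_num)
    (by norm_num) hq 64 (by norm_num) (by norm_num) (1 + X - X ^ 4 : ℤ[X]) ?_ ?_ ?_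
  · simp only [eval_add, eval_sub, eval_one, eval_X, eval_pow]; norm_num
  · intro z hz
    have h0 := hz.geom_sum_eq_zero (by norm_num)
    simp only [Finset.sum_range_succ, Finset.sum_range_zero, zero_add, pow_zero, pow_one] at h0
    refine ⟨24 + (-25) * z + (-27) * z ^ 2 + 10 * z ^ 3 + (-3) * z ^ 4 + (-39) * z ^ 5 + (-5) * z ^ 6 + (-2) * z ^ 7 + (-18) * z ^ 8 + (-38) * z ^ 9 + 16 * z ^ 10 + (-35) * z ^ 11, ?_⟩
    simp only [map_add, map_sub, map_one, aeval_X, map_pow]
    push_cast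
    linear_combination (-((-55) + 54 * z + (-51) * z ^ 2 + 35 * z ^ 3)) * h0
  · intro z hz
    have h0 := hz.geom_sum_eq_zero (by norm_num)
    simp only [Finset.sum_range_succ, Finset.sum_range_zero, zero_add, pow_zero, pow_one] at h0
    refine ⟨(-19) + 21 * z + 22 * z ^ 2 + (-8) * z ^ 3 + 3 * z ^ 4 + 32 * z ^ 5 + 4 * z ^ 6 + 2 * z ^ 7 + 15 * z ^ 8 + 31 * z ^ 9 + (-13) * z ^ 10 + 29 * z ^ 11, ?_⟩
    simp only [map_add, map_sub, map_one, aeval_X, map_pow]
    push_cast
    linear_combination (-(45 + (-44) * z + 42 * z ^ 2 + (-29) * z ^ 3)) * h0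

lemma prime13_157 (K : Type*) [Field K] [NumberField K] [IsCyclotomicExtension {13} ℚ K]
    (P : Ideal (𝓞 K)) (hP : P.IsPrime) (hq : ((157 : ℕ) : 𝓞 K) ∈ P) : Submodule.IsPrincipal P := by
  have : Fact (Nat.Prime 13) := ⟨by norm_num⟩
  refine principal_deg_one (IsCyclotomicExtension.zeta_spec 13 ℚ K) P 157 (by norm_num)
    (by norm_num) hq 75 (by norm_num) (by norm_num) (1 - X + X ^ 2 + X ^ 4 : ℤ[X]) ?_ ?_ ?_
  · simp only [eval_add, eval_sub, eval_one, eval_X, eval_pow]; norm_num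
  · intro z hz
    have h0 := hz.geom_sum_eq_zero (by norm_num)
    simp only [Finset.sum_range_succ, Finset.sum_range_zero, zero_add, pow_zero, pow_one] at h0
    refine ⟨89 + 86 * z + 42 * z ^ 2 + 77 * z ^ 3 + 67 * z ^ 4 + 25 * z ^ 5 + 37 * z ^ 6 + 56 * z ^ 7 + 73 * z ^ 8 + 113 * z ^ 9 + 124 * z ^ 10 + 76 * z ^ 11, ?_⟩
    simp only [map_add, map_sub, map_one, aeval_X, map_pow]
    push_cast
    linear_combination (-((-68) + 65 * z + 48 * z ^ 2 + 76 * z ^ 3)) * h0
  · intro z hz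
    have h0 := hz.geom_sum_eq_zero (by norm_num)
    simp only [Finset.sum_range_succ, Finset.sum_range_zero, zero_add, pow_zero, pow_one] at h0
    refine ⟨(-43) + (-41) * z + (-20) * z ^ 2 + (-37) * z ^ 3 + (-32) * z ^ 4 + (-12) * z ^ 5 + (-18) * z ^ 6 + (-27) * z ^ 7 + (-35) * z ^ 8 + (-54) * z ^ 9 + (-59) * z ^ 10 + (-36) * z ^ 11, ?_⟩
    simp only [map_add, map_sub, map_one, aeval_X, map_pow]
    push_cast
    linear_combination (-(32 + (-31) * z + (-23) * z ^ 2 + (-36) * z ^ 3)) * h0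

lemma cubic_no_root : ∀ b : ZMod 3, b ^ 3 - b - 1 ≠ 0 := by decide

lemma prime13_3 (K : Type*) [Field K] [NumberField K] [IsCyclotomicExtension {13} ℚ K]
    (P : Ideal (𝓞 K)) (hP : P.IsPrime) (hq : ((3 : ℕ) : 𝓞 K) ∈ P) : Submodule.IsPrincipal P := by
  have : Fact (Nat.Prime 13) := ⟨by norm_num⟩
  have : Fact (Nat.Prime 3) := ⟨by norm_num⟩
  have hζ := IsCyclotomicExtension.zeta_spec 13 ℚ K
  set z := hζ.toInteger with hz
  have h0 := hζ.toInteger_isPrimitiveRoot.geom_sum_eq_zero (by norm_num)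
  rw [← hz] at h0
  simp only [Finset.sum_range_succ, Finset.sum_range_zero, zero_add, pow_zero, pow_one] at h0
  have hprod : (1 + z ^ 1 - (z ^ 1) ^ 3) * (1 + z ^ 2 - (z ^ 2) ^ 3) *
      (1 + z ^ 4 - (z ^ 4) ^ 3) * (1 + z ^ 7 - (z ^ 7) ^ 3) ∈ P := by
    have : (1 + z ^ 1 - (z ^ 1) ^ 3) * (1 + z ^ 2 - (z ^ 2) ^ 3) *
      (1 + z ^ 4 - (z ^ 4) ^ 3) * (1 + z ^ 7 - (z ^ 7) ^ 3) =
      ((3 : ℕ) : 𝓞 K) * (1 + 1 * z ^ 2 + 1 * z ^ 3 + 1 * z ^ 4 + 1 * z ^ 5 + 1 * z ^ 6 + 1 * z ^ 7 + 1 * z ^ 9 + 1 * z ^ 11) := by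
      push_cast
      linear_combination ((-2) + 3 * z + (-3) * z ^ 2 + (-1) * z ^ 3 + 1 * z ^ 4 + (-1) * z ^ 5 + 4 * z ^ 8 + (-3) * z ^ 9 + 1 * z ^ 10 + (-2) * z ^ 11 + 2 * z ^ 12 + (-1) * z ^ 13 + 1 * z ^ 14 + (-1) * z ^ 15 + (-1) * z ^ 16 + 1 * z ^ 17 + (-1) * z ^ 18 + 1 * z ^ 21 + (-1) * z ^ 22 + 1 * z ^ 23 + 1 * z ^ 25 + (-1) * z ^ 28 + (-1) * z ^ 29 + 1 * z ^ 30) * h0
    rw [this]
    exact P.mul_mem_right _ hq
  have hex : ∃ j : ℕ, j.Coprime 13 ∧ 1 + z ^ j - (z ^ j) ^ 3 ∈ P := by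
    rcases hP.mem_or_mem hprod with h1 | h1
    · rcases hP.mem_or_mem h1 with h2 | h2
      · rcases hP.mem_or_mem h2 with h3 | h3
        · exact ⟨1, by norm_num, h3⟩
        · exact ⟨2, by norm_num, h3⟩
      · exact ⟨4, by norm_num, h2⟩
    · exact ⟨7, by norm_num, h1⟩
  obtain ⟨j, hj, hjP⟩ := hex
  have hζ' := hζ.pow_of_coprime j hj
  have h7 : hζ'.toInteger = z ^ j := rfl
  set w := hζ'.toInteger with hw
  have h0' := hζ'.toInteger_isPrimitiveRoot.geom_sum_eq_zero (by norm_num)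
  rw [← hw] at h0'
  simp only [Finset.sum_range_succ, Finset.sum_range_zero, zero_add, pow_zero, pow_one] at h0'
  rw [← h7] at hjP
  have hirr : Irreducible ((X ^ 3 - X - 1 : ℤ[X]).map (Int.castRingHom (ZMod 3))) := by
    have hmap : (X ^ 3 - X - 1 : ℤ[X]).map (Int.castRingHom (ZMod 3)) = X ^ 3 - X - 1 := by simp
    rw [hmap]
    have hdeg : (X ^ 3 - X - 1 : (ZMod 3)[X]).natDegree = 3 := by compute_degree!
    rw [Polynomial.irreducible_iff_roots_eq_zero_of_degree_le_three (by rw [hdeg]; norm_num)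
      (by rw [hdeg])]
    rw [Multiset.eq_zero_iff_forall_notMem]
    intro a ha
    have h8 := Polynomial.isRoot_of_mem_roots ha
    simp only [IsRoot.def, eval_sub, eval_pow, eval_X, eval_one] at h8
    clear ha
    exact cubic_no_root a h8
  have hprin := principal_general (pres_cyclotomic hζ') P hP.ne_top 3 (X ^ 3 - X - 1) hirr
    (1 + w - w ^ 3) hjP ⟨-1, by
      simp only [map_sub, map_one, aeval_X, map_pow]
      rw [← hw]
      ring⟩ ⟨(-1) + (-1) * w ^ 2 + (-1) * w ^ 3 + (-2) * w ^ 5 + (-1) * w ^ 7 + (-2) * w ^ 8 + 1 * w ^ 9 + (-3) * w ^ 10, by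
      push_cast
      linear_combination (-((-4) + 3 * w)) * h0'⟩
  exact ⟨_, hprin⟩

theorem pid7 (K : Type*) [Field K] [NumberField K] [IsCyclotomicExtension {7} ℚ K] :
    IsPrincipalIdealRing (𝓞 K) := by
  have : Fact (Nat.Prime 7) := ⟨by norm_num⟩
  refine pid_of_bound 7 K 4 ?_ ?_
  · refine minkowski_lt 7 K (by norm_num) 130 _ (by norm_num) (by norm_num) ?_
    norm_num [Nat.factorial]
  · intro q hq hqp hq7
    left
    interval_cases q
    all_goals first
      | (exfalso; revert hqp; norm_num; done)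
      | (refine ⟨3, ?_, ?_⟩ <;> [(norm_num; done); (intro k hk hk3; interval_cases k <;> norm_num; done)])

theorem pid11 (K : Type*) [Field K] [NumberField K] [IsCyclotomicExtension {11} ℚ K] :
    IsPrincipalIdealRing (𝓞 K) := by
  have : Fact (Nat.Prime 11) := ⟨by norm_num⟩
  refine pid_of_bound 11 K 59 ?_ ?_
  · refine minkowski_lt 11 K (by norm_num) 48559 _ (by norm_num) (by norm_num) ?_
    norm_num [Nat.factorial]
  · intro q hq hqp hq11
    by_cases h23 : q = 23
    · subst h23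
      right
      intro P hP hqP
      exact prime11_23 K P hP hqP
    left
    interval_cases q
    all_goals first
      | (exfalso; revert hqp; norm_num; done)
      | exact absurd rfl h23
      | exact absurd rfl hq11
      | (refine ⟨2, ?_, ?_⟩ <;> [(norm_num; done); (intro k hk hk3; interval_cases k; norm_num; done)])
      | (refine ⟨3, ?_, ?_⟩ <;> [(norm_num; done); (intro k hk hk3; interval_cases k <;> norm_num; done)])
      | (refine ⟨4, ?_, ?_⟩ <;> [(norm_num; done); (intro k hk hk3; interval_cases k <;> norm_num; done)])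
      | (refine ⟨6, ?_, ?_⟩ <;> [(norm_num; done); (intro k hk hk3; interval_cases k <;> norm_num; done)])

theorem pid13 (K : Type*) [Field K] [NumberField K] [IsCyclotomicExtension {13} ℚ K] :
    IsPrincipalIdealRing (𝓞 K) := by
  have : Fact (Nat.Prime 13) := ⟨by norm_num⟩
  refine pid_of_bound 13 K 307 ?_ ?_
  · refine minkowski_lt 13 K (by norm_num) 1338716 _ (by norm_num) (by norm_num) ?_
    norm_num [Nat.factorial]
  · intro q hq hqp hq13
    by_cases h1 : q % 13 = 1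
    · right
      intro P hP hqP
      obtain ⟨k, hk⟩ : ∃ k, q = 13 * k + 1 := ⟨q / 13, by omega⟩
      have hk24 : k < 24 := by omega
      interval_cases k
      all_goals first
        | (exfalso; subst hk; revert hqp; norm_num; done)
        | (subst hk; exact prime13_53 K P hP hqP)
        | (subst hk; exact prime13_79 K P hP hqP)
        | (subst hk; exact prime13_131 K P hP hqP)
        | (subst hk; exact prime13_157 K P hP hqP)
    · by_cases h18 : q < 18
      · by_cases h3 : q = 3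
        · subst h3
          right
          intro P hP hqP
          exact prime13_3 K P hP hqP
        left
        interval_cases q
        all_goals first
          | (exfalso; revert hqp; norm_num; done)
          | exact absurd rfl h3
          | exact absurd rfl hq13
          | (refine ⟨3, ?_, ?_⟩ <;> [(norm_num; done); (intro k hk hk3; interval_cases k <;> norm_num; done)])
          | (refine ⟨4, ?_, ?_⟩ <;> [(norm_num; done); (intro k hk hk3; interval_cases k <;> norm_num; done)])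
          | (refine ⟨9, ?_, ?_⟩ <;> [(norm_num; done); (intro k hk hk3; interval_cases k <;> norm_num; done)])
      · left
        refine ⟨2, ?_, ?_⟩
        · have : 18 ≤ q := by omega
          calc 307 < 18 ^ 2 := by norm_num
            _ ≤ q ^ 2 := Nat.pow_le_pow_left this 2
        · intro k hk hk2
          have : k = 1 := by omega
          subst this
          rw [pow_one]; exact h1

end Fermat.Agent.KummerFLT
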