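import Fermat.Agent.KummerFLT.Numeric
import Fermat.Agent.KummerFLT.Pid

/-!
Fermat's Last Theorem for the exponents `5`, `7`, `11` and `13`.
-/

set_option autoImplicit false

open NumberField

namespace Fermat.Agent.KummerFLT

lemma cyc_inst (n : ℕ) [NeZero n] :
    @IsCyclotomicExtension {n} ℚ (CyclotomicField n ℚ) _ _ (DivisionRing.toRatAlgebra) := by
  have h := CyclotomicField.isCyclotomicExtension n ℚ
  have e : (CyclotomicField.algebra n ℚ) = (DivisionRing.toRatAlgebra) := Subsingleton.elim _ _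
  rw [e] at h
  exact h

theorem flt5_int {a b c : ℤ} (ha : a ≠ 0) (hb : b ≠ 0) (hc : c ≠ 0) (hab : IsCoprime a b)
    (h : a ^ 5 + b ^ 5 = c ^ 5) : False := by
  have := cyc_inst 5
  have := IsCyclotomicExtension.Rat.five_pid (CyclotomicField 5 ℚ)
  exact flt_of_setup (setup5 (IsCyclotomicExtension.zeta_spec 5 ℚ (CyclotomicField 5 ℚ)))
    (by norm_num) (by norm_num) (q := 11) (by norm_num) (by decide) (by decide) ha hb hc hab h

theorem flt7_int {a b c : ℤ} (ha : a ≠ 0) (hb : b ≠ 0) (hc : c ≠ 0) (hab : IsCoprime a b)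
    (h : a ^ 7 + b ^ 7 = c ^ 7) : False := by
  have := cyc_inst 7
  have := pid7 (CyclotomicField 7 ℚ)
  exact flt_of_setup (setup7 (IsCyclotomicExtension.zeta_spec 7 ℚ (CyclotomicField 7 ℚ)))
    (by norm_num) (by norm_num) (q := 29) (by norm_num) (by decide) (by decide) ha hb hc hab h

theorem flt11_int {a b c : ℤ} (ha : a ≠ 0) (hb : b ≠ 0) (hc : c ≠ 0) (hab : IsCoprime a b)
    (h : a ^ 11 + b ^ 11 = c ^ 11) : False := by
  have := cyc_inst 11
  have := pid11 (CyclotomicField 11 ℚ)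
  exact flt_of_setup (setup11 (IsCyclotomicExtension.zeta_spec 11 ℚ (CyclotomicField 11 ℚ)))
    (by norm_num) (by norm_num) (q := 23) (by norm_num) (by decide) (by decide) ha hb hc hab h

theorem flt13_int {a b c : ℤ} (ha : a ≠ 0) (hb : b ≠ 0) (hc : c ≠ 0) (hab : IsCoprime a b)
    (h : a ^ 13 + b ^ 13 = c ^ 13) : False := by
  have := cyc_inst 13
  have := pid13 (CyclotomicField 13 ℚ)
  exact flt_of_setup (setup13 (IsCyclotomicExtension.zeta_spec 13 ℚ (CyclotomicField 13 ℚ)))
    (by norm_num) (by norm_num) (q := 53) (by norm_num) (by decide) (by decide) ha hb hc hab h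

end Fermat.Agent.KummerFLT
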