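import Fermat.Agent.KummerFLT.Field

/-!
Tools for proving that the ring of integers of a cyclotomic field is principal.
-/

set_option autoImplicit false

open Polynomial NumberField

namespace Fermat.Agent.KummerFLT

lemma principal_general {O : Type*} [CommRing O] {p : ℕ} {z : O} (hP : Pres O p z)
    (I : Ideal O) (hI : I ≠ ⊤) (q : ℕ) [hq : Fact q.Prime] (h : ℤ[X])
    (hirr : Irreducible (h.map (Int.castRingHom (ZMod q)))) (α : O)
    (hα : α ∈ I) (hh : α ∣ aeval z h) (hqα : α ∣ (q : O)) : I = Ideal.span {α} := by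
  apply le_antisymm
  · intro x hx
    obtain ⟨f, rfl⟩ := hP.surj x
    have hlift : ∀ g : (ZMod q)[X], ∃ g' : ℤ[X], g'.map (Int.castRingHom (ZMod q)) = g := by
      intro g
      exact map_surjective _ (ZMod.ringHom_surjective _) g
    have hker : ∀ g : ℤ[X], g.map (Int.castRingHom (ZMod q)) = 0 → ∃ e : ℤ[X], g = C (q : ℤ) * e := by
      intro g hg
      have : C (q : ℤ) ∣ g := by
        rw [C_dvd_iff_dvd_coeff]
        intro i
        have h1 := congrArg (fun f => coeff f i) hg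
        simp only [coeff_map, coeff_zero, eq_intCast] at h1
        exact (ZMod.intCast_zmod_eq_zero_iff_dvd _ _).mp h1
      exact this
    rw [Ideal.mem_span_singleton]
    rcases (EuclideanDomain.dvd_or_coprime _ (f.map (Int.castRingHom (ZMod q))) hirr) with h1 | h1
    · obtain ⟨g, hg⟩ := h1
      obtain ⟨g', rfl⟩ := hlift g
      rw [← Polynomial.map_mul] at hg
      obtain ⟨e, he⟩ := hker (f - h * g') (by rw [Polynomial.map_sub, hg, sub_self])
      have hf : f = h * g' + C (q : ℤ) * e := by rw [← he]; ring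
      rw [hf, map_add, map_mul, map_mul, aeval_C]
      simp only [algebraMap_int_eq, eq_intCast, Int.cast_natCast]
      exact dvd_add (hh.mul_right _) (hqα.mul_right _)
    · exfalso
      obtain ⟨u, v, huv⟩ := h1
      obtain ⟨u', rfl⟩ := hlift u
      obtain ⟨v', rfl⟩ := hlift v
      obtain ⟨e, he⟩ := hker (u' * h + v' * f - 1) (by
        rw [Polynomial.map_sub, Polynomial.map_add, Polynomial.map_mul, Polynomial.map_mul,
          Polynomial.map_one, huv, sub_self])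
      have h2 : aeval z (u' * h + v' * f - 1) = aeval z (C (q : ℤ) * e) := by rw [he]
      simp only [map_sub, map_add, map_mul, map_one, eq_intCast,
        Int.cast_natCast, map_natCast] at h2
      have h3 : (1 : O) = aeval z u' * aeval z h + aeval z v' * aeval z f - (q : O) * aeval z e := by
        rw [← h2]; ring
      apply hI
      rw [Ideal.eq_top_iff_one, h3]
      have hhI : aeval z h ∈ I := Ideal.mem_of_dvd _ hh hα
      have hqI : (q : O) ∈ I := Ideal.mem_of_dvd _ hqα hα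
      exact I.sub_mem (I.add_mem (I.mul_mem_left _ hhI) (I.mul_mem_left _ hx))
        (I.mul_mem_right _ hqI)
  · rw [Ideal.span_singleton_le_iff_mem]; exact hα

variable {p : ℕ} [hp : Fact p.Prime] {K : Type*} [Field K] [NumberField K]
  [hK : IsCyclotomicExtension {p} ℚ K] {ζ : K} (hζ : IsPrimitiveRoot ζ p)

include hζ in
/-- For an integer `t` of order `p` modulo `q`, a power of `ζ` is congruent to `t` modulo a prime
above `q`. -/
lemma exists_root (I : Ideal (𝓞 K)) [hI : I.IsPrime] (q : ℕ) (hqp : q ≠ p) (hq : q.Prime)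
    (hqI : (q : 𝓞 K) ∈ I) (t : ℤ) (ht : (q : ℤ) ∣ t ^ p - 1) (ht1 : ¬ (q : ℤ) ∣ t - 1) :
    ∃ ζ' : K, ∃ hζ' : IsPrimitiveRoot ζ' p, hζ'.toInteger - (t : 𝓞 K) ∈ I := by
  set z := hζ.toInteger with hz
  let k := 𝓞 K ⧸ I
  have : IsDomain k := Ideal.Quotient.isDomain I
  let φ : 𝓞 K →+* k := Ideal.Quotient.mk I
  have hφ : ∀ x, φ x = 0 ↔ x ∈ I := fun x => Ideal.Quotient.eq_zero_iff_mem
  have hcast : ∀ n : ℤ, (q : ℤ) ∣ n → (n : 𝓞 K) ∈ I := by
    rintro n ⟨m, rfl⟩
    push_cast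
    exact I.mul_mem_right _ hqI
  have hcast' : ∀ n : ℤ, (n : 𝓞 K) ∈ I → (q : ℤ) ∣ n := by
    intro n hn
    by_contra hnd
    obtain ⟨a, b, hab⟩ := (Prime.coprime_iff_not_dvd (Nat.prime_iff_prime_int.mp hq)).mpr hnd
    apply hI.ne_top
    rw [Ideal.eq_top_iff_one]
    have h1 : (1 : 𝓞 K) = a * q + b * n := by exact_mod_cast (congrArg (Int.cast (R := 𝓞 K)) hab).symm
    rw [h1]
    exact I.add_mem (I.mul_mem_left _ hqI) (I.mul_mem_left _ hn)
  have hzp : IsPrimitiveRoot (φ z) p := by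
    rw [IsPrimitiveRoot.iff_orderOf]
    apply orderOf_eq_prime
    · rw [← map_pow, hζ.toInteger_isPrimitiveRoot.pow_eq_one, map_one]
    · intro h1
      have h2 : z - 1 ∈ I := by rw [← hφ, map_sub, h1, map_one, sub_self]
      have h3 : (p : 𝓞 K) ∈ I := by
        have h4 := IsCyclotomicExtension.Rat.associated_zeta_sub_one_pow_prime p hζ
        refine Ideal.mem_of_dvd _ ((dvd_pow_self _ ?_).trans h4.dvd) h2
        have := hp.out.two_le; omega
      have h5 := hcast' p (by exact_mod_cast h3)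
      have h6 : q ∣ p := by exact_mod_cast h5
      exact hqp ((Nat.prime_dvd_prime_iff_eq hq hp.out).mp h6)
  have htp : (φ (t : 𝓞 K)) ^ p = 1 := by
    rw [← map_pow, ← sub_eq_zero, ← map_one φ, ← map_sub, hφ]
    have := hcast _ ht
    push_cast at this
    exact this
  obtain ⟨j, hj, hj2⟩ := hzp.eq_pow_of_pow_eq_one htp
  have hj0 : j ≠ 0 := by
    rintro rfl
    rw [pow_zero] at hj2
    apply ht1
    apply hcast'
    push_cast
    rw [← hφ, map_sub, map_one, ← hj2, sub_self]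
  have hjc : j.Coprime p := (Nat.coprime_of_lt_prime hj0 hj hp.out).symm
  refine ⟨ζ ^ j, hζ.pow_of_coprime j hjc, ?_⟩
  have h7 : (hζ.pow_of_coprime j hjc).toInteger = z ^ j := rfl
  rw [h7, ← hφ, map_sub, map_pow, hj2, sub_self]

/-- degree one primes -/
lemma principal_deg_one (hζ : IsPrimitiveRoot ζ p) (I : Ideal (𝓞 K)) [hI : I.IsPrime] (q : ℕ)
    (hqp : q ≠ p) (hq : q.Prime)
    (hqI : (q : 𝓞 K) ∈ I) (t : ℤ) (ht : (q : ℤ) ∣ t ^ p - 1) (ht1 : ¬ (q : ℤ) ∣ t - 1)
    (g : ℤ[X]) (hg : (q : ℤ) ∣ g.eval t)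
    (h1 : ∀ z : 𝓞 K, IsPrimitiveRoot z p → aeval z g ∣ (q : 𝓞 K))
    (h2 : ∀ z : 𝓞 K, IsPrimitiveRoot z p → aeval z g ∣ z - (t : 𝓞 K)) :
    Submodule.IsPrincipal I := by
  obtain ⟨ζ', hζ', hmem⟩ := exists_root hζ I q hqp hq hqI t ht ht1
  have hα : aeval hζ'.toInteger g ∈ I := by
    have h3 : aeval hζ'.toInteger g - ((g.eval t : ℤ) : 𝓞 K) ∈ I := by
      have h4 : ((g.eval t : ℤ) : 𝓞 K) = aeval (t : 𝓞 K) g := by
        have := aeval_algebraMap_apply (A := ℤ) (B := 𝓞 K) t g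
        simpa using this.symm
      rw [h4]
      refine Ideal.mem_of_dvd _ ?_ hmem
      rw [aeval_def, aeval_def, ← eval_map, ← eval_map]
      exact sub_dvd_eval_sub _ _ _
    have h5 : ((g.eval t : ℤ) : 𝓞 K) ∈ I := by
      obtain ⟨m, hm⟩ := hg
      rw [hm]; push_cast
      exact I.mul_mem_right _ hqI
    have h6 := I.add_mem h3 h5
    rwa [sub_add_cancel] at h6
  have : Fact q.Prime := ⟨hq⟩
  have hprin := principal_general (pres_cyclotomic hζ') I hI.ne_top q (X - C t) (by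
    rw [Polynomial.map_sub, map_X, map_C]
    exact irreducible_X_sub_C _) (aeval hζ'.toInteger g) hα (by
      rw [map_sub, aeval_X, aeval_C]
      simpa using h2 _ hζ'.toInteger_isPrimitiveRoot) (h1 _ hζ'.toInteger_isPrimitiveRoot)
  exact ⟨_, hprin⟩

variable (p K)

/-- big inertia degree -/
lemma lt_pow_inertiaDeg (q : ℕ) (hq : q.Prime) (hqp : q ≠ p) (B f : ℕ) (hB : B < q ^ f)
    (hf : ∀ k, 0 < k → k < f → q ^ k % p ≠ 1)
    (P : Ideal (𝓞 K)) (hP : P ∈ (Ideal.span {(q : ℤ)}).primesOver (𝓞 K)) :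
    B < q ^ P.inertiaDeg ℤ := by
  obtain ⟨h1, h2⟩ := hP
  have : Fact q.Prime := ⟨hq⟩
  have hd : ¬ q ∣ p := fun h => hqp ((Nat.prime_dvd_prime_iff_eq hq hp.out).mp h)
  rw [IsCyclotomicExtension.Rat.inertiaDeg_eq_of_not_dvd q K P hd]
  refine hB.trans_le (Nat.pow_le_pow_right hq.pos ?_)
  by_contra hlt
  push Not at hlt
  have hunit : IsUnit (q : ZMod p) := by
    rw [ZMod.isUnit_iff_coprime]
    exact (Nat.coprime_primes hq hp.out).mpr hqp
  have hpos : 0 < orderOf (q : ZMod p) := by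
    obtain ⟨u, hu⟩ := hunit
    rw [← hu, orderOf_units]
    exact orderOf_pos u
  apply hf _ hpos hlt
  have h3 := pow_orderOf_eq_one (q : ZMod p)
  have h4 : ((q ^ orderOf (q : ZMod p) : ℕ) : ZMod p) = ((1 : ℕ) : ZMod p) := by
    push_cast; exact h3
  rw [ZMod.natCast_eq_natCast_iff] at h4
  have h5 : (1 : ℕ) % p = 1 := Nat.mod_eq_of_lt hp.out.one_lt
  rw [Nat.ModEq, h5] at h4
  exact h4

/-- the prime above `p` is principal. -/
lemma principal_above_p (P : Ideal (𝓞 K)) (hP : P ∈ (Ideal.span {(p : ℤ)}).primesOver (𝓞 K)) :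
    Submodule.IsPrincipal P := by
  obtain ⟨h1, h2⟩ := hP
  have h3 := IsCyclotomicExtension.Rat.eq_span_zeta_sub_one_of_liesOver' p K
    (IsCyclotomicExtension.zeta_spec p ℚ K) P
  exact ⟨_, h3⟩

lemma exists_primesOver (q : ℕ) (hq : q.Prime) :
    ∃ P : Ideal (𝓞 K), P ∈ (Ideal.span {(q : ℤ)}).primesOver (𝓞 K) ∧ P.IsPrime ∧ (q : 𝓞 K) ∈ P := by
  have : (Ideal.span {(q : ℤ)}).IsPrime := by
    rw [Ideal.span_singleton_prime (by exact_mod_cast hq.ne_zero)]
    exact Nat.prime_iff_prime_int.mp hq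
  obtain ⟨⟨P, hP⟩⟩ := (Ideal.span {(q : ℤ)}).nonempty_primesOver (S := 𝓞 K)
  refine ⟨P, hP, hP.1, ?_⟩
  have h2 := hP.2
  have h3 : (q : ℤ) ∈ P.under ℤ := by
    rw [← h2.over]; exact Ideal.mem_span_singleton_self _
  rw [Ideal.mem_comap] at h3
  simpa using h3

end Fermat.Agent.KummerFLT
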