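import Mathlib

/-!
Kummer's descent for the second case of Fermat's Last Theorem, for a prime `p`
such that the relevant ring is a principal ideal ring and Kummer's lemma holds.
-/

set_option autoImplicit false

open Polynomial Finset

namespace Fermat.Agent.KummerFLT

/-- The abstract data used in Kummer's descent. -/
structure Setup (O : Type*) [CommRing O] [IsDomain O] (p : ℕ) (z : O) : Prop where
  prim : IsPrimitiveRoot z p
  prime : Prime (z - 1)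
  int : ∀ x : O, ∃ n : ℤ, (z - 1) ∣ x - n
  assoc : Associated ((z - 1) ^ (p - 1)) (p : O)
  dvd_int : ∀ n : ℤ, (z - 1) ∣ (n : O) ↔ (p : ℤ) ∣ n
  kummer : ∀ u : Oˣ, (∃ n : ℤ, (p : O) ∣ ((u : O) - n)) → ∃ v : Oˣ, u = v ^ p

section

variable {O : Type*} [CommRing O] [IsDomain O]

lemma exists_unit_mul_pow_of_prod [IsPrincipalIdealRing O] {ι : Type*} [DecidableEq ι]
    (s : Finset ι) (f : ι → O) (k : ℕ) (ε : Oˣ) (c : O)
    (hf : ∀ i ∈ s, ∀ j ∈ s, i ≠ j → IsCoprime (f i) (f j))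
    (h : ∏ i ∈ s, f i = ε * c ^ k) (i : ι) (hi : i ∈ s) :
    ∃ (u : Oˣ) (d : O), f i = u * d ^ k := by
  have h1 : f i * ∏ j ∈ s.erase i, f j = ε * c ^ k := by
    rw [Finset.mul_prod_erase s f hi, h]
  have hcop : IsCoprime (f i) (∏ j ∈ s.erase i, f j) := by
    apply IsCoprime.prod_right
    intro j hj
    rw [Finset.mem_erase] at hj
    exact hf i hi j hj.2 (Ne.symm hj.1)
  have h2 : Associated (c ^ k) (f i * ∏ j ∈ s.erase i, f j) := by
    rw [h1]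
    exact ⟨ε, by ring⟩
  obtain ⟨d, u, hu⟩ := exists_associated_pow_of_associated_pow_mul hcop h2
  exact ⟨u, d, by rw [← hu]; ring⟩

namespace Setup

variable {p : ℕ} {z : O}

lemma sub_one_dvd_p (S : Setup O p z) (h2 : 2 < p) : z - 1 ∣ (p : O) :=
  (dvd_pow_self _ (by omega)).trans S.assoc.dvd

lemma p_dvd_pow (S : Setup O p z) {k : ℕ} (hk : p - 1 ≤ k) : (p : O) ∣ (z - 1) ^ k :=
  S.assoc.symm.dvd.trans (pow_dvd_pow _ hk)

lemma pow_p_int (S : Setup O p z) (hp : p.Prime) (x : O) :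
    ∃ n : ℤ, (p : O) ∣ x ^ p - n := by
  obtain ⟨n, y, hy⟩ := S.int x
  obtain ⟨r, hr⟩ := exists_add_pow_prime_eq hp (n : O) ((z - 1) * y)
  have hx : x = n + (z - 1) * y := by rw [← hy]; ring
  refine ⟨n ^ p, ?_⟩
  rw [hx, hr]
  have h1 : (p : O) ∣ ((z - 1) * y) ^ p := by
    rw [mul_pow]
    apply Dvd.dvd.mul_right
    exact S.p_dvd_pow (by omega)
  push_cast
  have h3 : (n : O) ^ p + ((z - 1) * y) ^ p + p * n * ((z - 1) * y) * r - (n : O) ^ p =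
    ((z - 1) * y) ^ p + p * ((n * ((z - 1) * y)) * r) := by ring
  rw [h3]
  exact dvd_add h1 (dvd_mul_right _ _)

omit [IsDomain O] in
lemma pow_sub_one_sub (z : O) (i : ℕ) : (z - 1) ^ 2 ∣ z ^ i - 1 - i * (z - 1) := by
  induction i with
  | zero => simp
  | succ i ih =>
    obtain ⟨r, hr⟩ := ih
    refine ⟨z * r + i, ?_⟩
    have : z ^ (i + 1) - 1 - ((i + 1 : ℕ) : O) * (z - 1) =
      z * (z ^ i - 1 - i * (z - 1)) + i * (z - 1) ^ 2 := by push_cast; ring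
    rw [this, hr]; ring

/-- main step, after normalisation -/
lemma step_aux [IsPrincipalIdealRing O] (S : Setup O p z) (hp : p.Prime) (h2 : 2 < p)
    {a b c : O} {ε : Oˣ} {m : ℕ}
    (hb : ¬ z - 1 ∣ b) (hc : ¬ z - 1 ∣ c) (hab : IsCoprime a b)
    (hm : 1 ≤ m) (h1 : (z - 1) ^ 2 ∣ a + b)
    (h : a ^ p + b ^ p = ε * ((z - 1) ^ m * c) ^ p) :
    ∃ (a' b' c' : O) (ε' : Oˣ), ¬ z - 1 ∣ a' ∧ ¬ z - 1 ∣ b' ∧ ¬ z - 1 ∣ c' ∧ IsCoprime a' b' ∧
      2 ≤ m ∧ a' ^ p + b' ^ p = ε' * ((z - 1) ^ (m - 1) * c') ^ p := by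
  classical
  have hodd : Odd p := hp.odd_of_ne_two (by omega)
  have hz0 : z - 1 ≠ 0 := S.prime.ne_zero
  set μ := nthRootsFinset p (1 : O) with hμ
  have h1μ : (1 : O) ∈ μ := by rw [hμ, mem_nthRootsFinset hp.pos]; simp
  have hprod : a ^ p + b ^ p = ∏ η ∈ μ, (a + η * b) := S.prim.pow_add_pow_eq_prod_add_mul a b hodd
  have hdiff : ∀ η ∈ μ, ∀ η' ∈ μ, η ≠ η' → ∃ u : Oˣ, η - η' = (z - 1) * u := by
    intro η hη η' hη' hne
    obtain ⟨u, hu⟩ := S.prim.nthRootsFinset_pairwise_associated_sub_one_sub_of_prime hp hη hη' hne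
    exact ⟨u, hu.symm⟩
  have hdvd : ∀ η ∈ μ, z - 1 ∣ a + η * b := by
    intro η hη
    by_cases hη1 : η = 1
    · rw [hη1, one_mul]; exact (dvd_pow_self _ two_ne_zero).trans h1
    · obtain ⟨u, hu⟩ := hdiff η hη 1 h1μ hη1
      have : a + η * b = (a + b) + (η - 1) * b := by ring
      rw [this, hu]
      exact dvd_add ((dvd_pow_self _ two_ne_zero).trans h1) ⟨u * b, by ring⟩
  choose! δ hδ using hdvd
  have hδ1 : z - 1 ∣ δ 1 := by
    have h3 := hδ 1 h1μ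
    rw [one_mul] at h3
    obtain ⟨r, hr⟩ := h1
    refine ⟨r, ?_⟩
    have : (z - 1) * δ 1 = (z - 1) * ((z - 1) * r) := by rw [← h3, hr]; ring
    exact mul_left_cancel₀ hz0 this
  have hδdiff : ∀ η ∈ μ, ∀ η' ∈ μ, η ≠ η' → ∃ u : Oˣ, δ η - δ η' = u * b := by
    intro η hη η' hη' hne
    obtain ⟨u, hu⟩ := hdiff η hη η' hη' hne
    refine ⟨u, mul_left_cancel₀ hz0 ?_⟩
    rw [mul_sub, ← hδ η hη, ← hδ η' hη']
    linear_combination b * hu
  have hδn : ∀ η ∈ μ, η ≠ 1 → ¬ z - 1 ∣ δ η := by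
    intro η hη hne hd
    obtain ⟨u, hu⟩ := hδdiff η hη 1 h1μ hne
    apply hb
    have h4 : z - 1 ∣ (u : O) * b := by rw [← hu]; exact dvd_sub hd hδ1
    exact (Units.dvd_mul_left.mp h4)
  have hcop : ∀ η ∈ μ, ∀ η' ∈ μ, η ≠ η' → IsCoprime (δ η) (δ η') := by
    intro η hη η' hη' hne
    obtain ⟨u, hu⟩ := hδdiff η hη η' hη' hne
    obtain ⟨r, s, hrs⟩ := hab
    -- a = λ δ η - η b, b = u⁻¹ (δ η - δ η')
    have hbb : b = (↑u⁻¹ : O) * (δ η - δ η') := by rw [hu, ← mul_assoc]; simp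
    have haa : a = (z - 1) * δ η - η * b := by rw [← hδ η hη]; ring
    refine ⟨r * (z - 1) - r * η * ↑u⁻¹ + s * ↑u⁻¹, r * η * ↑u⁻¹ - s * ↑u⁻¹, ?_⟩
    linear_combination hrs - r * haa - (s - r * η) * hbb
  have hcard : μ.card = p := S.prim.card_nthRootsFinset
  -- product of the δ's
  have hprodδ : ∏ η ∈ μ, δ η = ε * ((z - 1) ^ ((m - 1) * p) * c ^ p) := by
    have h5 : ∏ η ∈ μ, (a + η * b) = (z - 1) ^ p * ∏ η ∈ μ, δ η := by
      rw [← hcard, ← Finset.prod_const, ← Finset.prod_mul_distrib]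
      exact Finset.prod_congr rfl hδ
    apply mul_left_cancel₀ (pow_ne_zero p hz0)
    rw [← h5, ← hprod, h]
    obtain ⟨m', rfl⟩ : ∃ m', m = m' + 1 := ⟨m - 1, by omega⟩
    simp only [Nat.add_sub_cancel]
    rw [mul_pow, ← pow_mul, add_mul, pow_add]
    ring
  have hRn : ¬ z - 1 ∣ ∏ η ∈ μ.erase 1, δ η := by
    intro hd
    obtain ⟨η, hη, hηd⟩ := S.prime.exists_mem_finset_dvd hd
    rw [Finset.mem_erase] at hη
    exact hδn η hη.2 hη.1 hηd
  have hsplit : δ 1 * ∏ η ∈ μ.erase 1, δ η = ∏ η ∈ μ, δ η := Finset.mul_prod_erase μ δ h1μ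
  have hpow : (z - 1) ^ ((m - 1) * p) ∣ δ 1 := by
    apply S.prime.pow_dvd_of_dvd_mul_right _ hRn
    rw [hsplit, hprodδ]
    exact ⟨ε * c ^ p, by ring⟩
  obtain ⟨δ', hδ'⟩ := hpow
  have hδ'R : δ' * ∏ η ∈ μ.erase 1, δ η = ε * c ^ p := by
    apply mul_left_cancel₀ (pow_ne_zero ((m - 1) * p) hz0)
    rw [← mul_assoc, ← hδ', hsplit, hprodδ]; ring
  have hδ'n : ¬ z - 1 ∣ δ' := by
    intro hd
    have h6 : z - 1 ∣ ε * c ^ p := by rw [← hδ'R]; exact hd.mul_right _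
    rw [Units.dvd_mul_left] at h6
    exact hc (S.prime.dvd_of_dvd_pow h6)
  have hm2 : 2 ≤ m := by
    by_contra hlt
    have : m = 1 := by omega
    subst this
    simp at hδ'
    rw [hδ'] at hδ1
    exact hδ'n hδ1
  -- p-th powers
  set f : O → O := Function.update δ 1 δ' with hf
  have hf1 : f 1 = δ' := by simp [hf]
  have hfη : ∀ η, η ≠ 1 → f η = δ η := by intro η hη; simp [hf, Function.update_of_ne hη]
  have hfprod : ∏ η ∈ μ, f η = ε * c ^ p := by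
    rw [← Finset.mul_prod_erase μ f h1μ, hf1, ← hδ'R]
    congr 1
    apply Finset.prod_congr rfl
    intro η hη
    rw [Finset.mem_erase] at hη
    exact hfη η hη.1
  have hδ'dvd : δ' ∣ δ 1 := ⟨(z - 1) ^ ((m - 1) * p), by rw [hδ']; ring⟩
  have hfcop : ∀ η ∈ μ, ∀ η' ∈ μ, η ≠ η' → IsCoprime (f η) (f η') := by
    intro η hη η' hη' hne
    by_cases h7 : η = 1
    · subst h7
      rw [hf1, hfη η' (Ne.symm hne)]
      exact (hcop 1 hη η' hη' hne).of_isCoprime_of_dvd_left hδ'dvd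
    · by_cases h8 : η' = 1
      · subst h8
        rw [hf1, hfη η h7]
        exact (hcop η hη 1 hη' hne).of_isCoprime_of_dvd_right hδ'dvd
      · rw [hfη η h7, hfη η' h8]
        exact hcop η hη η' hη' hne
  have hzμ : z ∈ μ := by rw [hμ, mem_nthRootsFinset hp.pos]; exact S.prim.pow_eq_one
  have hz2μ : z ^ 2 ∈ μ := by
    rw [hμ, mem_nthRootsFinset hp.pos, ← pow_mul, mul_comm, pow_mul, S.prim.pow_eq_one, one_pow]
  have hz1 : z ≠ 1 := S.prim.ne_one hp.one_lt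
  have hz21 : z ^ 2 ≠ 1 := S.prim.pow_ne_one_of_pos_of_lt two_ne_zero h2
  have hzz2 : z ≠ z ^ 2 := by
    intro h9
    have := S.prim.pow_inj (i := 1) (j := 2) hp.one_lt h2 (by simpa using h9)
    omega
  obtain ⟨ε₀, ρ₀, h0⟩ := exists_unit_mul_pow_of_prod μ f p ε c hfcop hfprod 1 h1μ
  obtain ⟨ε₁, ρ₁, h1'⟩ := exists_unit_mul_pow_of_prod μ f p ε c hfcop hfprod z hzμ
  obtain ⟨ε₂, ρ₂, h2'⟩ := exists_unit_mul_pow_of_prod μ f p ε c hfcop hfprod (z ^ 2) hz2μ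
  rw [hf1] at h0
  rw [hfη z hz1] at h1'
  rw [hfη (z ^ 2) hz21] at h2'
  have hρ0 : ¬ z - 1 ∣ ρ₀ := fun hd => hδ'n (by rw [h0]; exact (hd.pow hp.ne_zero).mul_left _)
  have hρ1 : ¬ z - 1 ∣ ρ₁ := fun hd => hδn z hzμ hz1
    (by rw [h1']; exact (hd.pow hp.ne_zero).mul_left _)
  have hρ2 : ¬ z - 1 ∣ ρ₂ := fun hd => hδn (z ^ 2) hz2μ hz21
    (by rw [h2']; exact (hd.pow hp.ne_zero).mul_left _)
  -- the relation
  have hrel : (1 + z) * δ z - δ (z ^ 2) = z * ((z - 1) ^ ((m - 1) * p) * δ') := by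
    apply mul_left_cancel₀ hz0
    have e1 := hδ 1 h1μ
    have e2 := hδ z hzμ
    have e3 := hδ (z ^ 2) hz2μ
    rw [← hδ']
    linear_combination (-(1 + z)) * e2 + e3 + z * e1
  have hcop2 : Nat.Coprime 2 p := (Nat.coprime_primes Nat.prime_two hp).mpr (by omega)
  obtain ⟨w, hw⟩ := S.prim.geom_sum_isUnit hp.two_le hcop2
  have hw' : (w : O) = 1 + z := by rw [hw]; simp [Finset.sum_range_succ]
  obtain ⟨zu, hzu⟩ := S.prim.isUnit hp.ne_zero
  have hcoprho : IsCoprime ρ₁ ρ₂ := by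
    have h10 := hcop z hzμ (z ^ 2) hz2μ hzz2
    rw [h1', h2'] at h10
    have h11 : IsCoprime (ρ₁ ^ p) (ρ₂ ^ p) := h10.of_mul_left_right.of_mul_right_right
    exact (IsCoprime.pow_iff hp.pos hp.pos).mp h11
  set u : Oˣ := -(ε₂ * (w * ε₁)⁻¹) with hu
  set ε' : Oˣ := zu * ε₀ * (w * ε₁)⁻¹ with hε'
  have hmain : ρ₁ ^ p + u * ρ₂ ^ p = ε' * ((z - 1) ^ (m - 1) * ρ₀) ^ p := by
    have hwe : (w : O) * ε₁ * ((w * ε₁)⁻¹ : Oˣ) = 1 := by
      rw [← Units.val_mul, ← Units.val_mul]; simp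
    rw [h1', h2', h0, ← hw'] at hrel
    have hu' : (u : O) = -(ε₂ * ((w * ε₁)⁻¹ : Oˣ)) := by rw [hu]; simp
    have hε'' : (ε' : O) = z * ε₀ * ((w * ε₁)⁻¹ : Oˣ) := by rw [hε', ← hzu]; simp
    rw [hu', hε'', mul_pow, ← pow_mul]
    set q : O := (((w * ε₁)⁻¹ : Oˣ) : O) with hq
    linear_combination q * hrel - ρ₁ ^ p * hwe
  -- Kummer's lemma
  obtain ⟨n₁, hn₁⟩ := S.pow_p_int hp ρ₁
  obtain ⟨n₂, hn₂⟩ := S.pow_p_int hp ρ₂
  have hn₂p : ¬ (p : ℤ) ∣ n₂ := by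
    intro hd
    apply hρ2
    have h12 : z - 1 ∣ ρ₂ ^ p := by
      have : ρ₂ ^ p = (ρ₂ ^ p - n₂) + n₂ := by ring
      rw [this]
      exact dvd_add ((S.sub_one_dvd_p h2).trans hn₂) ((S.dvd_int n₂).mpr hd)
    exact S.prime.dvd_of_dvd_pow h12
  have hcopn : IsCoprime (p : ℤ) n₂ :=
    (Prime.coprime_iff_not_dvd (Nat.prime_iff_prime_int.mp hp)).mpr hn₂p
  obtain ⟨s, k, hsk⟩ := hcopn
  have hpm : (p : O) ∣ ((z - 1) ^ (m - 1) * ρ₀) ^ p := by
    rw [mul_pow, ← pow_mul]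
    apply Dvd.dvd.mul_right
    apply S.p_dvd_pow
    calc p - 1 ≤ 1 * p := by omega
      _ ≤ (m - 1) * p := Nat.mul_le_mul_right _ (by omega)
  have hun : (p : O) ∣ (u : O) - ((-(k * n₁) : ℤ) : O) := by
    have e1 : (p : O) ∣ n₁ + u * n₂ := by
      have : (n₁ : O) + u * n₂ = (ρ₁ ^ p + u * ρ₂ ^ p) - (ρ₁ ^ p - n₁) - u * (ρ₂ ^ p - n₂) := by ring
      rw [this, hmain]
      exact dvd_sub (dvd_sub (hpm.mul_left _) hn₁) (hn₂.mul_left _)
    have e2 : (u : O) - ((-(k * n₁) : ℤ) : O) = k * (n₁ + u * n₂) + u * (s * p) := by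
      have e3 : ((s * p + k * n₂ : ℤ) : O) = 1 := by rw [hsk]; simp
      push_cast at e3 ⊢
      linear_combination (-(u : O)) * e3
    rw [e2]
    exact dvd_add (e1.mul_left _) ⟨u * s, by ring⟩
  obtain ⟨v, hv⟩ := S.kummer u ⟨_, hun⟩
  refine ⟨ρ₁, v * ρ₂, ρ₀, ε', hρ1, ?_, hρ0, ?_, hm2, ?_⟩
  · rw [Units.dvd_mul_left]; exact hρ2
  · exact (isCoprime_mul_unit_left_right v.isUnit ρ₁ ρ₂).mpr hcoprho
  · rw [← hmain, mul_pow, hv]; simp

lemma step [IsPrincipalIdealRing O] (S : Setup O p z) (hp : p.Prime) (h2 : 2 < p)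
    {a b c : O} {ε : Oˣ} {m : ℕ}
    (hb : ¬ z - 1 ∣ b) (hc : ¬ z - 1 ∣ c) (hab : IsCoprime a b)
    (hm : 1 ≤ m) (h : a ^ p + b ^ p = ε * ((z - 1) ^ m * c) ^ p) :
    ∃ (a' b' c' : O) (ε' : Oˣ), ¬ z - 1 ∣ a' ∧ ¬ z - 1 ∣ b' ∧ ¬ z - 1 ∣ c' ∧ IsCoprime a' b' ∧
      2 ≤ m ∧ a' ^ p + b' ^ p = ε' * ((z - 1) ^ (m - 1) * c') ^ p := by
  have hz0 : z - 1 ≠ 0 := S.prime.ne_zero
  have hodd : Odd p := hp.odd_of_ne_two (by omega)
  -- `z - 1` divides `a + b`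
  have h1 : z - 1 ∣ a + b := by
    have hprod : a ^ p + b ^ p = ∏ η ∈ nthRootsFinset p (1 : O), (a + η * b) :=
      S.prim.pow_add_pow_eq_prod_add_mul a b hodd
    have hd : z - 1 ∣ ∏ η ∈ nthRootsFinset p (1 : O), (a + η * b) := by
      rw [← hprod, h]
      apply Dvd.dvd.mul_left
      apply Dvd.dvd.pow _ hp.ne_zero
      exact (dvd_pow_self _ (by omega)).mul_right _
    obtain ⟨η, hη, hηd⟩ := S.prime.exists_mem_finset_dvd hd
    by_cases hη1 : η = 1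
    · rw [hη1, one_mul] at hηd; exact hηd
    · have h1μ : (1 : O) ∈ nthRootsFinset p (1 : O) := by rw [mem_nthRootsFinset hp.pos]; simp
      obtain ⟨u, hu⟩ := S.prim.nthRootsFinset_pairwise_associated_sub_one_sub_of_prime
        hp hη h1μ hη1
      have : a + b = (a + η * b) - (η - 1) * b := by ring
      rw [this, ← hu]
      exact dvd_sub hηd ⟨u * b, by ring⟩
  obtain ⟨d, hd⟩ := h1
  obtain ⟨n, hn⟩ := S.int d
  obtain ⟨k, hk⟩ := S.int b
  have hkp : ¬ (p : ℤ) ∣ k := by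
    intro hd'
    apply hb
    have : b = (b - k) + k := by ring
    rw [this]
    exact dvd_add hk ((S.dvd_int k).mpr hd')
  have hcopk : IsCoprime (p : ℤ) k :=
    (Prime.coprime_iff_not_dvd (Nat.prime_iff_prime_int.mp hp)).mpr hkp
  obtain ⟨s, t, hst⟩ := hcopk
  -- choose i ≡ -t n mod p
  set i : ℕ := ((-(t * n)) % p).toNat with hi
  have hpZ : (0 : ℤ) < p := by exact_mod_cast hp.pos
  have hi' : (p : ℤ) ∣ n + i * k := by
    have e1 : (i : ℤ) = (-(t * n)) % p := by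
      rw [hi]; exact Int.toNat_of_nonneg (Int.emod_nonneg _ hpZ.ne')
    have e2 : (i : ℤ) = -(t * n) - p * (-(t * n) / p) := by
      rw [e1]; have := Int.emod_add_mul_ediv (-(t * n)) p; linarith
    rw [e2]
    refine ⟨n * s - (-(t * n) / p) * k, ?_⟩
    linear_combination (-n) * hst
  set b₁ := z ^ i * b with hb₁
  have hzi : IsUnit (z ^ i) := (S.prim.isUnit hp.ne_zero).pow i
  obtain ⟨zu, hzu⟩ := hzi
  have hb₁' : ¬ z - 1 ∣ b₁ := by
    rw [hb₁, ← hzu, Units.dvd_mul_left]; exact hb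
  have hab₁ : IsCoprime a b₁ := by
    rw [hb₁, ← hzu]; exact (isCoprime_mul_unit_left_right zu.isUnit a b).mpr hab
  have h₁ : a ^ p + b₁ ^ p = ε * ((z - 1) ^ m * c) ^ p := by
    rw [← h, hb₁, mul_pow, ← pow_mul, mul_comm i p, pow_mul, S.prim.pow_eq_one, one_pow, one_mul]
  have hsq : (z - 1) ^ 2 ∣ a + b₁ := by
    obtain ⟨r, hr⟩ := pow_sub_one_sub z i
    obtain ⟨n', hn'⟩ := hn
    obtain ⟨k', hk'⟩ := hk
    obtain ⟨q, hq⟩ := (S.dvd_int (n + i * k)).mpr hi'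
    push_cast at hq
    refine ⟨r * b + n' + i * k' + q, ?_⟩
    rw [hb₁]
    have e1 : a + z ^ i * b = (a + b) + (z ^ i - 1 - i * (z - 1)) * b + i * (z - 1) * b := by ring
    rw [e1, hd, hr]
    linear_combination (z - 1) * hn' + i * (z - 1) * hk' + (z - 1) * hq
  exact S.step_aux hp h2 hb₁' hc hab₁ hm hsq h₁

/-- no solutions with `m ≥ 1` -/
theorem no_solution [IsPrincipalIdealRing O] (S : Setup O p z) (hp : p.Prime) (h2 : 2 < p) :
    ∀ (m : ℕ), 1 ≤ m → ∀ (a b c : O) (ε : Oˣ),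
    ¬ z - 1 ∣ b → ¬ z - 1 ∣ c → IsCoprime a b →
    a ^ p + b ^ p ≠ ε * ((z - 1) ^ m * c) ^ p := by
  intro m
  induction m with
  | zero => intro h; omega
  | succ m ih =>
    intro _ a b c ε hb hc hab h
    obtain ⟨a', b', c', ε', -, hb', hc', hab', hm2, h'⟩ := S.step hp h2 hb hc hab (by omega) h
    rw [Nat.add_sub_cancel] at h'
    exact ih (by omega) a' b' c' ε' hb' hc' hab' h'

/-- The second case of Fermat's Last Theorem. -/
theorem second_case [IsPrincipalIdealRing O] (S : Setup O p z) (hp : p.Prime) (h2 : 2 < p)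
    {a b c : ℤ} (hc0 : c ≠ 0) (hab : IsCoprime a b) (hb : ¬ (p : ℤ) ∣ b) (hc : (p : ℤ) ∣ c)
    (h : a ^ p + b ^ p = c ^ p) : False := by
  have hfin : FiniteMultiplicity (p : ℤ) c := by
    apply Int.finiteMultiplicity_iff.mpr
    refine ⟨?_, hc0⟩
    simp only [Int.natAbs_natCast]
    exact hp.one_lt.ne'
  obtain ⟨c', hc', hc'n⟩ := hfin.exists_eq_pow_mul_and_not_dvd
  set k := multiplicity (p : ℤ) c with hk
  have hk1 : 1 ≤ k := by
    by_contra hlt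
    have hk0 : k = 0 := by omega
    rw [hk0, pow_zero, one_mul] at hc'
    rw [hc'] at hc
    exact hc'n hc
  obtain ⟨u, hu⟩ := S.assoc
  refine S.no_solution hp h2 ((p - 1) * k) ?_ (a : O) (b : O) (c' : O) (u ^ (k * p)) ?_ ?_ ?_ ?_
  · have : 1 ≤ p - 1 := by omega
    calc 1 = 1 * 1 := rfl
      _ ≤ (p - 1) * k := Nat.mul_le_mul this hk1
  · rwa [S.dvd_int]
  · rwa [S.dvd_int]
  · have := hab.map (Int.castRingHom O)
    simpa using this
  · have h' : (a : O) ^ p + (b : O) ^ p = (c : O) ^ p := by exact_mod_cast congrArg (Int.cast (R := O)) h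
    rw [h', hc']
    push_cast
    rw [← hu]
    ring

end Setup

end

end Fermat.Agent.KummerFLT
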