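import Fermat.Agent.KummerFLT.Units

/-!
Cyclotomic fields satisfy the abstract requirements.
-/

set_option autoImplicit false

open Polynomial NumberField

namespace Fermat.Agent.KummerFLT

variable {p : ℕ} [hp : Fact p.Prime] {K : Type*} [Field K] [NumberField K]
  [hK : IsCyclotomicExtension {p} ℚ K] {ζ : K} (hζ : IsPrimitiveRoot ζ p)

include hζ in
lemma pres_cyclotomic : Pres (𝓞 K) p hζ.toInteger where
  surj x := by
    obtain ⟨f, hf⟩ := hζ.integralPowerBasis.exists_eq_aeval' x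
    exact ⟨f, by rw [hf, hζ.integralPowerBasis_gen]⟩
  ker f hf := by
    rw [cyclotomic_eq_minpoly hζ hp.out.pos]
    apply minpoly.isIntegrallyClosed_dvd (hζ.isIntegral hp.out.pos)
    have := congrArg (algebraMap (𝓞 K) K) hf
    rw [map_zero, ← aeval_algebraMap_apply] at this
    exact this

include hζ in
lemma int_cyclotomic (x : 𝓞 K) : ∃ n : ℤ, (hζ.toInteger - 1) ∣ x - n := by
  obtain ⟨f, rfl⟩ := (pres_cyclotomic hζ).surj x
  refine ⟨f.eval 1, ?_⟩
  have h1 : ((f.eval 1 : ℤ) : 𝓞 K) = aeval (1 : 𝓞 K) f := by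
    rw [aeval_def, algebraMap_int_eq, eval₂_at_one]; simp
  rw [h1, aeval_def, aeval_def, ← eval_map, ← eval_map]
  exact sub_dvd_eval_sub _ _ _

/-- generators of the unit group -/
lemma units_generators (K : Type*) [Field K] [NumberField K] :
    ∃ γ : Option (Fin (Units.rank K)) → (𝓞 K)ˣ,
      ∀ g : (𝓞 K)ˣ, ∃ e : Option (Fin (Units.rank K)) → ℤ, g = ∏ i, γ i ^ e i := by
  obtain ⟨t, ht⟩ := IsCyclic.exists_generator (α := Units.torsion K)
  refine ⟨fun o => o.elim (t : (𝓞 K)ˣ) (Units.fundSystem K), fun g => ?_⟩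
  obtain ⟨⟨ζ', e⟩, he, -⟩ := Units.exist_unique_eq_mul_prod K g
  obtain ⟨k, hk⟩ := Subgroup.mem_zpowers_iff.mp (ht ζ')
  refine ⟨fun o => o.elim k e, ?_⟩
  rw [Fintype.prod_option]
  simp only [Option.elim_none, Option.elim_some]
  rw [he, ← hk]
  simp

lemma rank_cyclotomic (hp3 : 2 < p) : Units.rank K + 1 = (p - 1) / 2 := by
  have h1 : 0 < Fintype.card (InfinitePlace K) := Fintype.card_pos
  rw [Units.rank, Nat.sub_add_cancel h1, InfinitePlace.card_eq_nrRealPlaces_add_nrComplexPlaces,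
    IsCyclotomicExtension.Rat.nrRealPlaces_eq_zero (n := p) K hp3,
    IsCyclotomicExtension.Rat.nrComplexPlaces_eq_totient_div_two p, Nat.totient_prime hp.out,
    zero_add]

include hζ in
theorem setup_cyclotomic {r : ℕ} (hr : 2 * r + 3 = p) (h5 : 5 ≤ p) (b : Fin (r + 1) → ℕ)
    (hb : ∀ j : Fin (r + 1), (((j : ℕ) + 1) * b j) % p = 1)
    (Mn : Fin (r + 1) → Fin (r + 1) → ℕ) (N : Matrix (Fin (r + 1)) (Fin (r + 1)) (ZMod p))
    (hM : ∀ j k : Fin (r + 1), entryFast p j (b j) (Sidx k) = Mn j k)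
    (hN : N * (Matrix.of fun j k => (Mn j k : ZMod p)) = 1) :
    Setup (𝓞 K) p hζ.toInteger where
  prim := hζ.toInteger_isPrimitiveRoot
  prime := hζ.zeta_sub_one_prime'
  int := int_cyclotomic hζ
  assoc := IsCyclotomicExtension.Rat.associated_zeta_sub_one_pow_prime p hζ
  dvd_int _ := IsCyclotomicExtension.Rat.zeta_sub_one_dvd_intCast_iff' p hζ
  kummer u hu := by
    obtain ⟨γ, hγ⟩ := units_generators K
    refine kummer_explicit (pres_cyclotomic hζ) hζ.toInteger_isPrimitiveRoot γ hγ ?_ hr h5 b hb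
      Mn N hM hN u hu
    rw [Fintype.card_option, Fintype.card_fin, rank_cyclotomic (p := p) (by omega)]
    omega

end Fermat.Agent.KummerFLT
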