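import Mathlib

/-!
Sophie Germain's criterion for the first case of Fermat's Last Theorem.
-/

set_option autoImplicit false

open Finset

namespace Fermat.Agent.KummerFLT

/-- the cofactor of `y + z` in `y ^ p + z ^ p`. -/
def psi (R : Type*) [CommRing R] (p : ℕ) (y z : R) : R := ∑ i ∈ range p, y ^ i * (-z) ^ (p - 1 - i)

lemma psi_mul {R : Type*} [CommRing R] {p : ℕ} (hp : Odd p) (y z : R) :
    (y + z) * psi R p y z = y ^ p + z ^ p := by
  have h := (Commute.all y (-z)).geom_sum₂_mul p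
  rw [Odd.neg_pow hp, sub_neg_eq_add, sub_neg_eq_add] at h
  rw [← h, psi]; ring

lemma psi_cast {p : ℕ} (q : ℕ) (y z : ℤ) :
    ((psi ℤ p y z : ℤ) : ZMod q) = psi (ZMod q) p (y : ZMod q) (z : ZMod q) := by
  simp [psi]

lemma psi_neg {R : Type*} [CommRing R] {p : ℕ} (y : R) :
    psi R p y (-y) = p * y ^ (p - 1) := by
  have : ∀ i ∈ range p, y ^ i * (-(-y)) ^ (p - 1 - i) = y ^ (p - 1) := by
    intro i hi
    rw [mem_range] at hi
    rw [neg_neg, ← pow_add]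
    congr 1
    omega
  rw [psi, sum_congr rfl this]
  simp

lemma psi_zero {R : Type*} [CommRing R] {p : ℕ} (hp : Odd p) (y : R) :
    psi R p 0 y = y ^ (p - 1) := by
  obtain ⟨k, hk⟩ := hp
  have hp0 : 0 < p := by omega
  rw [psi, Finset.sum_eq_single 0]
  · simp only [pow_zero, one_mul, Nat.sub_zero]
    have : Even (p - 1) := ⟨k, by omega⟩
    rw [this.neg_pow]
  · intro i _ hi
    simp [zero_pow hi]
  · intro h; simp at h; omega

lemma psi_int_dvd {p : ℕ} (y z : ℤ) : (y + z) ∣ psi ℤ p y z - p * y ^ (p - 1) := by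
  have h1 : psi ℤ p y (-y) = p * y ^ (p - 1) := psi_neg y
  rw [← h1, psi, psi, ← sum_sub_distrib]
  apply dvd_sum
  intro i _
  rw [← mul_sub]
  apply Dvd.dvd.mul_left
  have := sub_dvd_pow_sub_pow (-z) (-(-y)) (p - 1 - i)
  refine Dvd.dvd.trans ?_ this
  exact ⟨-1, by ring⟩

/-- factorisation into `p`-th powers -/
lemma sum_eq_pow {p : ℕ} (hp : p.Prime) (hodd : Odd p) {x y z : ℤ} (hyz : IsCoprime y z)
    (hx : ¬ (p : ℤ) ∣ x) (h : y ^ p + z ^ p = x ^ p) :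
    (∃ a : ℤ, y + z = a ^ p) ∧ ∃ α : ℤ, psi ℤ p y z = α ^ p := by
  have hmul := psi_mul hodd y z
  have hcop : IsCoprime (y + z) (psi ℤ p y z) := by
    rw [Int.isCoprime_iff_gcd_eq_one]
    by_contra hne
    obtain ⟨ℓ, hℓ, hℓd⟩ := Nat.exists_prime_and_dvd hne
    have hℓ1 : (ℓ : ℤ) ∣ y + z := (Int.natCast_dvd_natCast.mpr hℓd).trans (Int.gcd_dvd_left ..)
    have hℓ2 : (ℓ : ℤ) ∣ psi ℤ p y z := (Int.natCast_dvd_natCast.mpr hℓd).trans (Int.gcd_dvd_right ..)
    have hℓ3 : (ℓ : ℤ) ∣ p * y ^ (p - 1) := by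
      have e := hℓ1.trans (psi_int_dvd (p := p) y z)
      have : (p : ℤ) * y ^ (p - 1) = psi ℤ p y z - (psi ℤ p y z - p * y ^ (p - 1)) := by ring
      rw [this]; exact dvd_sub hℓ2 e
    have hℓp : Prime (ℓ : ℤ) := Nat.prime_iff_prime_int.mp hℓ
    rcases hℓp.dvd_or_dvd hℓ3 with h1 | h1
    · have : ℓ = p := (Nat.prime_dvd_prime_iff_eq hℓ hp).mp (Int.natCast_dvd_natCast.mp h1)
      subst this
      apply hx
      have : (ℓ : ℤ) ∣ x ^ ℓ := by rw [← h, ← hmul]; exact hℓ1.mul_right _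
      exact hℓp.dvd_of_dvd_pow this
    · have hy : (ℓ : ℤ) ∣ y := hℓp.dvd_of_dvd_pow h1
      have hz : (ℓ : ℤ) ∣ z := by
        have : z = (y + z) - y := by ring
        rw [this]; exact dvd_sub hℓ1 hy
      exact hℓp.not_isUnit (hyz.isUnit_of_dvd' hy hz)
  rw [← hmul] at h
  obtain ⟨a, ha⟩ := Int.eq_pow_of_mul_eq_pow_odd_left hcop hodd h
  obtain ⟨α, hα⟩ := Int.eq_pow_of_mul_eq_pow_odd_right hcop hodd h
  exact ⟨⟨a, ha⟩, α, hα⟩

lemma zmod_aux {p q : ℕ} [Fact q.Prime]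
    (h1 : ∀ x y : ZMod q, x ^ p + y ^ p + 1 = 0 → x = 0 ∨ y = 0) {x y z : ZMod q}
    (h : x ^ p + y ^ p + z ^ p = 0) : x = 0 ∨ y = 0 ∨ z = 0 := by
  by_cases hz : z = 0
  · exact Or.inr (Or.inr hz)
  · have h2 : (x / z) ^ p + (y / z) ^ p + 1 = 0 := by
      rw [div_pow, div_pow]
      have hzp : z ^ p ≠ 0 := pow_ne_zero p hz
      field_simp
      linear_combination h
    rcases h1 _ _ h2 with h3 | h3
    · rw [div_eq_zero_iff] at h3
      exact Or.inl (h3.resolve_right hz)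
    · rw [div_eq_zero_iff] at h3
      exact Or.inr (Or.inl (h3.resolve_right hz))

lemma germain_aux {p q : ℕ} (hp : p.Prime) (hodd : Odd p) [Fact q.Prime]
    (h1 : ∀ x y : ZMod q, x ^ p + y ^ p + 1 = 0 → x = 0 ∨ y = 0)
    (h2 : ∀ x : ZMod q, x ^ p ≠ p)
    {x y z : ℤ} (hxy : IsCoprime x y) (hyz : IsCoprime y z) (hxz : IsCoprime x z)
    (hx : ¬ (p : ℤ) ∣ x) (hy : ¬ (p : ℤ) ∣ y) (hz : ¬ (p : ℤ) ∣ z)
    (h : x ^ p + y ^ p + z ^ p = 0) (hqx : (q : ℤ) ∣ x) : False := by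
  have hq : q.Prime := Fact.out
  have hqp : Prime (q : ℤ) := Nat.prime_iff_prime_int.mp hq
  obtain ⟨⟨a, ha⟩, α, hα⟩ := sum_eq_pow (x := -x) hp hodd hyz (by rwa [dvd_neg])
    (by rw [hodd.neg_pow]; linear_combination h)
  obtain ⟨⟨b, hb⟩, -⟩ := sum_eq_pow (x := -y) hp hodd hxz (by rwa [dvd_neg])
    (by rw [hodd.neg_pow]; linear_combination h)
  obtain ⟨⟨c, hc⟩, γ, hγ⟩ := sum_eq_pow (x := -z) hp hodd hxy (by rwa [dvd_neg])
    (by rw [hodd.neg_pow]; linear_combination h)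
  have hx0 : ((x : ℤ) : ZMod q) = 0 := (ZMod.intCast_zmod_eq_zero_iff_dvd x q).mpr hqx
  have hy0 : ((y : ℤ) : ZMod q) ≠ 0 := by
    intro h0
    exact hqp.not_isUnit (hxy.isUnit_of_dvd' hqx ((ZMod.intCast_zmod_eq_zero_iff_dvd y q).mp h0))
  have hz0 : ((z : ℤ) : ZMod q) ≠ 0 := by
    intro h0
    exact hqp.not_isUnit (hxz.isUnit_of_dvd' hqx ((ZMod.intCast_zmod_eq_zero_iff_dvd z q).mp h0))
  have e1 : (b : ZMod q) ^ p + (c : ZMod q) ^ p + ((-a : ℤ) : ZMod q) ^ p = 0 := by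
    have : b ^ p + c ^ p + (-a) ^ p = 2 * x := by
      rw [hodd.neg_pow, ← ha, ← hb, ← hc]; ring
    have h3 := congrArg (Int.cast (R := ZMod q)) this
    push_cast at h3 ⊢
    rw [h3, hx0, mul_zero]
  rcases zmod_aux h1 e1 with h3 | h3 | h3
  · apply hz0
    have := congrArg (Int.cast (R := ZMod q)) hb
    push_cast at this
    rw [h3, zero_pow hp.ne_zero, hx0, zero_add] at this
    exact this
  · apply hy0
    have := congrArg (Int.cast (R := ZMod q)) hc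
    push_cast at this
    rw [h3, zero_pow hp.ne_zero, hx0, zero_add] at this
    exact this
  · have ha0 : ((a : ℤ) : ZMod q) = 0 := by
      push_cast at h3
      rwa [neg_eq_zero] at h3
    have hzy : ((z : ℤ) : ZMod q) = -((y : ℤ) : ZMod q) := by
      have := congrArg (Int.cast (R := ZMod q)) ha
      push_cast at this
      rw [ha0, zero_pow hp.ne_zero] at this
      linear_combination this
    have hα' : (p : ZMod q) * (y : ZMod q) ^ (p - 1) = (α : ZMod q) ^ p := by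
      have := congrArg (Int.cast (R := ZMod q)) hα
      rw [psi_cast, hzy, psi_neg] at this
      push_cast at this
      exact this
    have hγ' : (y : ZMod q) ^ (p - 1) = (γ : ZMod q) ^ p := by
      have := congrArg (Int.cast (R := ZMod q)) hγ
      rw [psi_cast, hx0, psi_zero hodd] at this
      push_cast at this
      exact this
    have hγ0 : (γ : ZMod q) ≠ 0 := by
      intro h0
      rw [h0, zero_pow hp.ne_zero] at hγ'
      exact hy0 (eq_zero_of_pow_eq_zero hγ')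
    apply h2 ((α : ZMod q) / γ)
    rw [div_pow, ← hα', ← hγ']
    field_simp

/-- Sophie Germain's theorem -/
theorem germain {p q : ℕ} (hp : p.Prime) (hodd : Odd p) (hq : q.Prime)
    (h1 : ∀ x y : ZMod q, x ^ p + y ^ p + 1 = 0 → x = 0 ∨ y = 0)
    (h2 : ∀ x : ZMod q, x ^ p ≠ p)
    {x y z : ℤ} (hxy : IsCoprime x y) (hyz : IsCoprime y z) (hxz : IsCoprime x z)
    (h : x ^ p + y ^ p + z ^ p = 0) : (p : ℤ) ∣ x ∨ (p : ℤ) ∣ y ∨ (p : ℤ) ∣ z := by
  have : Fact q.Prime := ⟨hq⟩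
  by_contra hcon
  push Not at hcon
  obtain ⟨hx, hy, hz⟩ := hcon
  have e1 : (x : ZMod q) ^ p + (y : ZMod q) ^ p + (z : ZMod q) ^ p = 0 := by
    exact_mod_cast congrArg (Int.cast (R := ZMod q)) h
  rcases zmod_aux h1 e1 with h3 | h3 | h3
  · exact germain_aux hp hodd h1 h2 hxy hyz hxz hx hy hz h
      ((ZMod.intCast_zmod_eq_zero_iff_dvd x q).mp h3)
  · exact germain_aux hp hodd h1 h2 hxy.symm hxz hyz hy hx hz (by linear_combination h)
      ((ZMod.intCast_zmod_eq_zero_iff_dvd y q).mp h3)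
  · exact germain_aux hp hodd h1 h2 hxz.symm hxy hyz.symm hz hx hy (by linear_combination h)
      ((ZMod.intCast_zmod_eq_zero_iff_dvd z q).mp h3)

end Fermat.Agent.KummerFLT
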