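import Fermat.Agent.KummerFLT.Descent
import Fermat.Agent.KummerFLT.FirstCase

/-!
Fermat's Last Theorem for an exponent satisfying Kummer's conditions.
-/

set_option autoImplicit false

namespace Fermat.Agent.KummerFLT

theorem flt_of_setup {O : Type*} [CommRing O] [IsDomain O] [IsPrincipalIdealRing O] {p : ℕ} {z : O}
    (S : Setup O p z) (hp : p.Prime) (h2 : 2 < p) {q : ℕ} (hq : q.Prime)
    (hq1 : ∀ x y : ZMod q, x ^ p + y ^ p + 1 = 0 → x = 0 ∨ y = 0)
    (hq2 : ∀ x : ZMod q, x ^ p ≠ p)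
    {a b c : ℤ} (ha : a ≠ 0) (hb : b ≠ 0) (hc : c ≠ 0) (hab : IsCoprime a b)
    (h : a ^ p + b ^ p = c ^ p) : False := by
  have hodd : Odd p := hp.odd_of_ne_two (by omega)
  have hpp : Prime (p : ℤ) := Nat.prime_iff_prime_int.mp hp
  have hbc : IsCoprime b c := by
    have h1 : IsCoprime (a ^ p) (b ^ p) := hab.pow
    have h3 : IsCoprime (c ^ p) (b ^ p) := by
      rw [← h]; simpa using h1.add_mul_left_left 1
    exact ((IsCoprime.pow_iff hp.pos hp.pos).mp h3).symm
  have hac : IsCoprime a c := by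
    have h1 : IsCoprime (b ^ p) (a ^ p) := hab.symm.pow
    have h3 : IsCoprime (c ^ p) (a ^ p) := by
      rw [← h]; simpa [add_comm] using h1.add_mul_left_left 1
    exact ((IsCoprime.pow_iff hp.pos hp.pos).mp h3).symm
  have hsum : a ^ p + b ^ p + (-c) ^ p = 0 := by rw [hodd.neg_pow, h]; ring
  have not_both : ∀ {x y : ℤ}, IsCoprime x y → (p : ℤ) ∣ x → ¬ (p : ℤ) ∣ y := by
    intro x y hxy hx hy
    exact hpp.not_isUnit (hxy.isUnit_of_dvd' hx hy)
  rcases germain hp hodd hq hq1 hq2 hab hbc.neg_right hac.neg_right hsum with h3 | h3 | h3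
  · refine S.second_case hp h2 ha (a := c) (b := -b) hbc.symm.neg_right ?_ h3 ?_
    · rw [dvd_neg]; exact not_both hab h3
    · rw [hodd.neg_pow, ← h]; ring
  · refine S.second_case hp h2 hb (a := c) (b := -a) hac.symm.neg_right ?_ h3 ?_
    · rw [dvd_neg]; exact not_both hab.symm h3
    · rw [hodd.neg_pow, ← h]; ring
  · rw [dvd_neg] at h3
    exact S.second_case hp h2 hc hab (not_both hbc.symm h3) h3 h

end Fermat.Agent.KummerFLT
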