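import Fermat.Agent.KummerFLT.Field

/-!
Numerical verification of Kummer's lemma for `p = 5, 7, 11, 13`.
-/

set_option autoImplicit false

open NumberField

namespace Fermat.Agent.KummerFLT

variable {K : Type*} [Field K] [NumberField K]

instance fact5 : Fact (Nat.Prime 5) := ⟨by norm_num⟩
instance fact7 : Fact (Nat.Prime 7) := ⟨by norm_num⟩
instance fact11 : Fact (Nat.Prime 11) := ⟨by norm_num⟩
instance fact13 : Fact (Nat.Prime 13) := ⟨by norm_num⟩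

theorem setup5 [IsCyclotomicExtension {5} ℚ K] {ζ : K} (hζ : IsPrimitiveRoot ζ 5) :
    Setup (𝓞 K) 5 hζ.toInteger :=
  setup_cyclotomic hζ (r := 1) rfl (by norm_num) ![1, 3] (by decide)
    ![![1, 4], ![4, 0]] !![0, 4; 4, 4] (by decide) (by decide)

theorem setup7 [IsCyclotomicExtension {7} ℚ K] {ζ : K} (hζ : IsPrimitiveRoot ζ 7) :
    Setup (𝓞 K) 7 hζ.toInteger :=
  setup_cyclotomic hζ (r := 2) rfl (by norm_num) ![1, 4, 5] (by decide)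
    ![![1, 6, 6], ![5, 4, 2], ![2, 1, 3]] !![1, 3, 3; 1, 4, 0; 6, 6, 3] (by decide) (by decide)

theorem setup11 [IsCyclotomicExtension {11} ℚ K] {ζ : K} (hζ : IsPrimitiveRoot ζ 11) :
    Setup (𝓞 K) 11 hζ.toInteger :=
  setup_cyclotomic hζ (r := 4) rfl (by norm_num) ![1, 6, 4, 3, 9] (by decide)
    ![![1, 10, 10, 10, 10], ![7, 7, 1, 5, 6], ![2, 6, 4, 6, 2], ![8, 7, 7, 5, 10], ![3, 10, 2, 5, 5]]
    !![5, 6, 7, 0, 2; 2, 8, 7, 4, 2; 4, 0, 1, 3, 1; 8, 8, 5, 0, 1; 1, 1, 5, 4, 9]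
    (by decide) (by decide)

theorem setup13 [IsCyclotomicExtension {13} ℚ K] {ζ : K} (hζ : IsPrimitiveRoot ζ 13) :
    Setup (𝓞 K) 13 hζ.toInteger :=
  setup_cyclotomic hζ (r := 5) rfl (by norm_num) ![1, 7, 9, 10, 8, 11] (by decide)
    ![![1, 12, 12, 12, 12, 12], ![8, 2, 3, 0, 9, 8], ![2, 3, 2, 1, 8, 9], ![9, 2, 10, 0, 4, 8], ![3, 12, 5, 1, 3, 2], ![10, 7, 7, 0, 6, 6]]
    !![3, 10, 12, 7, 4, 4; 1, 2, 12, 11, 2, 1; 4, 10, 2, 9, 2, 2; 10, 7, 4, 9, 7, 11;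
      1, 11, 0, 6, 1, 1; 12, 6, 7, 11, 5, 2]
    (by decide) (by decide)

end Fermat.Agent.KummerFLT
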