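import Fermat.Agent.KummerFLT.Main

/-!
Kummer's lemma via logarithmic derivatives.
-/

set_option autoImplicit false

open Polynomial

namespace Fermat.Agent.KummerFLT

section Group

lemma exists_pow_of_hom {G : Type*} [CommGroup G] {ι ι' : Type*} [Fintype ι] [Fintype ι']
    (p : ℕ) [Fact p.Prime]
    (γ : ι → G) (hγ : ∀ g : G, ∃ e : ι → ℤ, g = ∏ i, γ i ^ e i)
    (L : G →* Multiplicative (ι' → ZMod p)) (hL : Function.Surjective L)
    (hcard : Fintype.card ι = Fintype.card ι') (g : G) (hg : L g = 1) : ∃ v : G, g = v ^ p := by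
  classical
  let M : (ι → ZMod p) →ₗ[ZMod p] (ι' → ZMod p) :=
    Fintype.linearCombination (ZMod p) (fun i => Multiplicative.toAdd (L (γ i)))
  have key : ∀ (e : ι → ℤ), M (fun i => (e i : ZMod p)) =
      Multiplicative.toAdd (L (∏ i, γ i ^ e i)) := by
    intro e
    rw [map_prod, toAdd_prod]
    simp only [M, Fintype.linearCombination_apply, map_zpow, toAdd_zpow]
    refine Finset.sum_congr rfl fun i _ => ?_
    exact Int.cast_smul_eq_zsmul (ZMod p) (e i) _
  have hsurj : Function.Surjective M := by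
    intro y
    obtain ⟨g', hg'⟩ := hL (Multiplicative.ofAdd y)
    obtain ⟨e, he⟩ := hγ g'
    refine ⟨fun i => (e i : ZMod p), ?_⟩
    rw [key, ← he, hg']; rfl
  have hinj : Function.Injective M :=
    (LinearMap.injective_iff_surjective_of_finrank_eq_finrank (by simp [hcard])).mpr hsurj
  obtain ⟨e, he⟩ := hγ g
  have h0 : M (fun i => (e i : ZMod p)) = 0 := by
    rw [key, ← he, hg]; rfl
  have h1 : (fun i => (e i : ZMod p)) = 0 := hinj (by rw [h0, map_zero])
  have h2 : ∀ i, ∃ k : ℤ, e i = p * k := by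
    intro i
    have : (e i : ZMod p) = 0 := congrFun h1 i
    exact (ZMod.intCast_zmod_eq_zero_iff_dvd (e i) p).mp this
  choose k hk using h2
  refine ⟨∏ i, γ i ^ k i, ?_⟩
  rw [he, ← Finset.prod_pow]
  refine Finset.prod_congr rfl fun i _ => ?_
  rw [hk i, ← zpow_natCast, ← zpow_mul, mul_comm]

end Group

section Dlog

/-- Presentation of the ring `ℤ[z]`. -/
structure Pres (O : Type*) [CommRing O] (p : ℕ) (z : O) : Prop where
  surj : ∀ x : O, ∃ f : ℤ[X], aeval z f = x
  ker : ∀ f : ℤ[X], aeval z f = 0 → cyclotomic p ℤ ∣ f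

/-- the target of the logarithmic derivative. -/
abbrev DQ (p : ℕ) := (ZMod p)[X] ⧸ Ideal.span {((X - 1) ^ (p - 2) : (ZMod p)[X])}

/-- reduction of polynomials mod `p`. -/
noncomputable abbrev red (p : ℕ) : ℤ[X] →+* (ZMod p)[X] := mapRingHom (Int.castRingHom (ZMod p))

lemma red_cyclotomic (p : ℕ) [hp : Fact p.Prime] :
    red p (cyclotomic p ℤ) = (X - 1) ^ (p - 1) := by
  have h1 : red p (cyclotomic p ℤ) = cyclotomic p (ZMod p) := by
    simp [red]
  rw [h1]
  have h2 := cyclotomic_prime_mul_X_sub_one (ZMod p) p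
  have h3 : (X ^ p - 1 : (ZMod p)[X]) = (X - 1) ^ p := by
    rw [sub_pow_char, one_pow]
  rw [h3] at h2
  have h4 : ((X - 1) ^ p : (ZMod p)[X]) = (X - 1) ^ (p - 1) * (X - 1) := by
    rw [← pow_succ]; congr 1; have := hp.out.two_le; omega
  rw [h4] at h2
  have h5 : (X - 1 : (ZMod p)[X]) ≠ 0 := by
    have := X_sub_C_ne_zero (1 : ZMod p)
    simpa using this
  exact mul_right_cancel₀ h5 h2

variable {O : Type*} [CommRing O] {p : ℕ} {z : O}

namespace Pres

/-- a chosen lift -/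
noncomputable def lft (P : Pres O p z) (x : O) : ℤ[X] := (P.surj x).choose

lemma aeval_lft (P : Pres O p z) (x : O) : aeval z (P.lft x) = x := (P.surj x).choose_spec

/-- reduction -/
noncomputable def psi (P : Pres O p z) (x : O) : DQ p :=
  Ideal.Quotient.mk _ (red p (P.lft x))

/-- derivative -/
noncomputable def der (P : Pres O p z) (x : O) : DQ p :=
  Ideal.Quotient.mk _ (derivative (red p (P.lft x)))

variable [hp : Fact p.Prime]

lemma psi_aeval (P : Pres O p z) (f : ℤ[X]) :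
    P.psi (aeval z f) = Ideal.Quotient.mk _ (red p f) := by
  rw [psi, Ideal.Quotient.eq, Ideal.mem_span_singleton, ← map_sub]
  obtain ⟨h, hh⟩ := P.ker (P.lft (aeval z f) - f) (by rw [map_sub, aeval_lft, sub_self])
  rw [hh, map_mul, red_cyclotomic]
  exact (pow_dvd_pow _ (by omega)).mul_right _

lemma der_aeval (P : Pres O p z) (f : ℤ[X]) :
    P.der (aeval z f) = Ideal.Quotient.mk _ (derivative (red p f)) := by
  rw [der, Ideal.Quotient.eq, Ideal.mem_span_singleton, ← map_sub, ← map_sub]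
  obtain ⟨h, hh⟩ := P.ker (P.lft (aeval z f) - f) (by rw [map_sub, aeval_lft, sub_self])
  rw [hh, map_mul, red_cyclotomic, derivative_mul, derivative_pow]
  have hp1 : p - 1 - 1 = p - 2 := by omega
  rw [hp1]
  refine dvd_add ?_ ?_
  · exact ((dvd_mul_left _ _).mul_right _).mul_right _
  · exact (pow_dvd_pow _ (by omega)).mul_right _

lemma psi_mul (P : Pres O p z) (x y : O) : P.psi (x * y) = P.psi x * P.psi y := by
  obtain ⟨f, rfl⟩ := P.surj x
  obtain ⟨g, rfl⟩ := P.surj y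
  rw [← map_mul, psi_aeval, psi_aeval, psi_aeval, map_mul, map_mul]

lemma psi_one (P : Pres O p z) : P.psi 1 = 1 := by
  have h := P.psi_aeval 1
  rw [map_one] at h
  rw [h, map_one, map_one]

lemma der_mul (P : Pres O p z) (x y : O) :
    P.der (x * y) = P.psi x * P.der y + P.psi y * P.der x := by
  obtain ⟨f, rfl⟩ := P.surj x
  obtain ⟨g, rfl⟩ := P.surj y
  rw [← map_mul, psi_aeval, psi_aeval, der_aeval, der_aeval, der_aeval, map_mul, derivative_mul,
    map_add, map_mul, map_mul]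
  ring

lemma der_int (P : Pres O p z) (x : O) (n : ℤ) (h : (p : O) ∣ x - n) : P.der x = 0 := by
  obtain ⟨w, hw⟩ := h
  obtain ⟨f, rfl⟩ := P.surj w
  have hx : x = aeval z (C n + C (p : ℤ) * f) := by
    rw [map_add, map_mul, aeval_C, aeval_C]
    simp only [algebraMap_int_eq, eq_intCast, Int.cast_natCast]
    rw [← hw]; ring
  rw [hx, der_aeval]
  simp

/-- logarithmic derivative -/
noncomputable def dlog (P : Pres O p z) : Oˣ →* Multiplicative (DQ p) where
  toFun u := Multiplicative.ofAdd (P.psi ((u⁻¹ : Oˣ) : O) * P.der (u : O))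
  map_one' := by
    have h : P.der ((1 : Oˣ) : O) = 0 := P.der_int _ 1 (by simp)
    rw [h, mul_zero]; rfl
  map_mul' u v := by
    rw [← ofAdd_add]
    congr 1
    rw [mul_inv, Units.val_mul, Units.val_mul, psi_mul, der_mul]
    have hu : P.psi ((u⁻¹ : Oˣ) : O) * P.psi (u : O) = 1 := by
      rw [← psi_mul, ← Units.val_mul, inv_mul_cancel, Units.val_one, psi_one]
    have hv : P.psi ((v⁻¹ : Oˣ) : O) * P.psi (v : O) = 1 := by
      rw [← psi_mul, ← Units.val_mul, inv_mul_cancel, Units.val_one, psi_one]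
    linear_combination P.psi ((v⁻¹ : Oˣ) : O) * P.der (v : O) * hu +
      P.psi ((u⁻¹ : Oˣ) : O) * P.der (u : O) * hv

/-- Taylor coefficient functional. -/
noncomputable def tcoeff (p : ℕ) (k : ℕ) (hk : k < p - 2) : DQ p →+ ZMod p :=
  QuotientAddGroup.lift _ (AddMonoidHom.mk' (fun f : (ZMod p)[X] => (taylor 1 f).coeff k)
    (fun f g => by rw [map_add, coeff_add])) (by
      intro f hf
      have hf' : f ∈ Ideal.span {((X - 1) ^ (p - 2) : (ZMod p)[X])} := hf
      rw [Ideal.mem_span_singleton] at hf'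
      obtain ⟨g, rfl⟩ := hf'
      change (taylor 1 ((X - 1) ^ (p - 2) * g)).coeff k = 0
      rw [taylor_mul, taylor_pow]
      have : (taylor (1 : ZMod p) (X - 1 : (ZMod p)[X])) = X := by
        simp [map_sub]
      rw [this, coeff_X_pow_mul']
      rw [if_neg (by omega)])

lemma tcoeff_mk (k : ℕ) (hk : k < p - 2) (f : (ZMod p)[X]) :
    tcoeff p k hk (Ideal.Quotient.mk _ f) = (taylor 1 f).coeff k := rfl

/-- Vector-valued logarithmic derivative -/
noncomputable def vlog (P : Pres O p z) {ι' : Type*} (S : ι' → ℕ) (hS : ∀ k, S k < p - 2) :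
    Oˣ →* Multiplicative (ι' → ZMod p) :=
  (AddMonoidHom.toMultiplicative
    (AddMonoidHom.pi (fun k => tcoeff p (S k) (hS k)) : DQ p →+ (ι' → ZMod p))).comp P.dlog

lemma vlog_apply (P : Pres O p z) {ι' : Type*} (S : ι' → ℕ) (hS : ∀ k, S k < p - 2)
    (u : Oˣ) (W V : ℤ[X]) (hW : aeval z W = u) (hV : aeval z V = ((u⁻¹ : Oˣ) : O)) :
    P.vlog S hS u = Multiplicative.ofAdd
      (fun k => (taylor 1 (red p (V * derivative W))).coeff (S k)) := by
  have h1 : P.dlog u = Multiplicative.ofAdd (Ideal.Quotient.mk _ (red p (V * derivative W))) := by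
    change Multiplicative.ofAdd (P.psi ((u⁻¹ : Oˣ) : O) * P.der (u : O)) = _
    rw [← hW, ← hV, psi_aeval, der_aeval, ← map_mul, map_mul]
    congr 3
    simp [red, derivative_map]
  rw [vlog, MonoidHom.comp_apply, h1]
  rfl

lemma vlog_eq_one_of_int (P : Pres O p z) {ι' : Type*} (S : ι' → ℕ) (hS : ∀ k, S k < p - 2)
    (u : Oˣ) (m : ℤ) (h : (p : O) ∣ (u : O) - m) : P.vlog S hS u = 1 := by
  have h1 : P.dlog u = 1 := by
    change Multiplicative.ofAdd (P.psi ((u⁻¹ : Oˣ) : O) * P.der (u : O)) = _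
    rw [P.der_int _ m h, mul_zero]; rfl
  rw [vlog, MonoidHom.comp_apply, h1, map_one]

/-- Kummer's lemma from an explicit matrix inverse. -/
theorem kummer_of_matrix (P : Pres O p z) {ι : Type*} [Fintype ι]
    (γ : ι → Oˣ) (hγ : ∀ g : Oˣ, ∃ e : ι → ℤ, g = ∏ i, γ i ^ e i) {n : ℕ}
    (hcard : Fintype.card ι = n) (S : Fin n → ℕ) (hS : ∀ k, S k < p - 2)
    (w : Fin n → Oˣ) (M N : Matrix (Fin n) (Fin n) (ZMod p))
    (hM : ∀ j, P.vlog S hS (w j) = Multiplicative.ofAdd (M j)) (hN : N * M = 1)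
    (u : Oˣ) (hu : ∃ m : ℤ, (p : O) ∣ (u : O) - m) : ∃ v : Oˣ, u = v ^ p := by
  obtain ⟨m, hm⟩ := hu
  refine exists_pow_of_hom p γ hγ (P.vlog S hS) ?_ (by simp [hcard]) u
    (P.vlog_eq_one_of_int S hS u m hm)
  intro y
  refine ⟨∏ j, w j ^ (Matrix.vecMul (Multiplicative.toAdd y) N j).val, ?_⟩
  rw [map_prod]
  simp only [map_pow, hM]
  rw [← ofAdd_toAdd y]
  apply Multiplicative.toAdd.injective
  rw [toAdd_prod]
  simp only [toAdd_pow, toAdd_ofAdd]
  have h1 : ∀ j, (Matrix.vecMul (Multiplicative.toAdd y) N j).val • M j =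
      (Matrix.vecMul (Multiplicative.toAdd y) N j) • M j := by
    intro j
    rw [← Nat.cast_smul_eq_nsmul (ZMod p), ZMod.natCast_zmod_val]
  simp only [h1]
  have h2 : ∑ j, (Matrix.vecMul (Multiplicative.toAdd y) N j) • M j =
      Matrix.vecMul (Matrix.vecMul (Multiplicative.toAdd y) N) M :=
    (Matrix.vecMul_eq_sum _ M).symm
  rw [h2, Matrix.vecMul_vecMul, hN, Matrix.vecMul_one]

end Pres

end Dlog

section Explicit

/-- the unit polynomials -/
noncomputable def Wp (j : ℕ) : ℤ[X] := ∑ i ∈ Finset.range (j + 1), X ^ (i + 1)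

/-- the inverse unit polynomials -/
noncomputable def Vp (p j b : ℕ) : ℤ[X] := X ^ (p - 1) * ∑ l ∈ Finset.range b, X ^ ((j + 1) * l)

/-- matrix entries -/
def entry (p j b k : ℕ) : ℕ := ∑ i ∈ Finset.range (j + 1), ∑ l ∈ Finset.range b,
  (i + 1) * (p - 1 + (j + 1) * l + i).choose k

/-- a version of `entry` better suited for kernel evaluation. -/
def entryFast (p j b k : ℕ) : ℕ :=
  (((List.range (j + 1)).map fun i => ((List.range b).map fun l =>
    (i + 1) * ((p - 1 + (j + 1) * l + i).descFactorial k / k.factorial)).sum).sum) % p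

lemma entry_eq_fast (p j b k : ℕ) : (entry p j b k : ZMod p) = (entryFast p j b k : ZMod p) := by
  rw [entryFast, ZMod.natCast_mod, entry]
  congr 1
  have h : ∀ (f : ℕ → ℕ) (n : ℕ), ∑ i ∈ Finset.range n, f i = ((List.range n).map f).sum :=
    fun f n => rfl
  simp_rw [h, Nat.choose_eq_descFactorial_div_factorial]

lemma taylor_entry (p j b k : ℕ) :
    (taylor 1 (red p (Vp p j b * derivative (Wp j)))).coeff k = (entry p j b k : ZMod p) := by
  have h1 : Vp p j b * derivative (Wp j) = ∑ i ∈ Finset.range (j + 1), ∑ l ∈ Finset.range b,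
      ((i + 1 : ℕ) : ℤ[X]) * X ^ (p - 1 + (j + 1) * l + i) := by
    rw [Vp, Wp, derivative_sum, Finset.mul_sum]
    refine Finset.sum_congr rfl fun i _ => ?_
    rw [Finset.mul_sum, Finset.sum_mul]
    refine Finset.sum_congr rfl fun l _ => ?_
    rw [derivative_X_pow, Nat.add_sub_cancel]
    have : C (((i + 1 : ℕ) : ℤ)) = ((i + 1 : ℕ) : ℤ[X]) := by simp
    rw [this]
    ring
  rw [h1, entry, map_sum, map_sum, finsetSum_coeff]
  push_cast
  refine Finset.sum_congr rfl fun i _ => ?_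
  rw [map_sum, map_sum, finsetSum_coeff]
  refine Finset.sum_congr rfl fun l _ => ?_
  rw [map_mul]
  have h2 : red p ((i : ℤ[X]) + 1) = C ((i : ZMod p) + 1) := by simp [red]
  have h3 : red p (X ^ (p - 1 + (j + 1) * l + i)) = X ^ (p - 1 + (j + 1) * l + i) := by simp [red]
  rw [h2, h3, taylor_mul, taylor_C, taylor_X_pow, coeff_C_mul, C_1, coeff_X_add_one_pow]

variable {O : Type*} [CommRing O] [IsDomain O] {p : ℕ} {z : O}

lemma W_mul_V (hz : IsPrimitiveRoot z p) (hp : 1 < p) {j b : ℕ} (hb : ((j + 1) * b) % p = 1) :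
    aeval z (Wp j) * aeval z (Vp p j b) = 1 := by
  have hz1 : z - 1 ≠ 0 := by
    have := hz.ne_one hp
    rwa [sub_ne_zero]
  have hW : aeval z (Wp j) = z * ∑ i ∈ Finset.range (j + 1), z ^ i := by
    rw [Wp, map_sum, Finset.mul_sum]
    refine Finset.sum_congr rfl fun i _ => ?_
    rw [map_pow, aeval_X, pow_succ]; ring
  have hV : aeval z (Vp p j b) = z ^ (p - 1) * ∑ l ∈ Finset.range b, (z ^ (j + 1)) ^ l := by
    rw [Vp, map_mul, map_pow, aeval_X, map_sum]
    congr 1
    refine Finset.sum_congr rfl fun l _ => ?_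
    rw [map_pow, aeval_X, pow_mul]
  have h1 : (∑ i ∈ Finset.range (j + 1), z ^ i) * (z - 1) = z ^ (j + 1) - 1 := geom_sum_mul z _
  have h2 : (∑ l ∈ Finset.range b, (z ^ (j + 1)) ^ l) * (z ^ (j + 1) - 1) =
      (z ^ (j + 1)) ^ b - 1 := geom_sum_mul _ _
  have h3 : (z ^ (j + 1)) ^ b = z := by
    rw [← pow_mul]
    conv_lhs => rw [← Nat.div_add_mod ((j + 1) * b) p, hb, pow_add, pow_mul, hz.pow_eq_one,
      one_pow, pow_one, one_mul]
  have h4 : z * z ^ (p - 1) = 1 := by
    rw [← pow_succ', Nat.sub_add_cancel hp.le, hz.pow_eq_one]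
  rw [h3] at h2
  apply mul_right_cancel₀ hz1
  rw [hW, hV, one_mul]
  calc z * (∑ i ∈ Finset.range (j + 1), z ^ i) *
        (z ^ (p - 1) * ∑ l ∈ Finset.range b, (z ^ (j + 1)) ^ l) * (z - 1)
      = (z * z ^ (p - 1)) * ((∑ l ∈ Finset.range b, (z ^ (j + 1)) ^ l) *
        ((∑ i ∈ Finset.range (j + 1), z ^ i) * (z - 1))) := by ring
    _ = z - 1 := by rw [h4, h1, h2, one_mul]

/-- index set of Taylor coefficients -/
def Sidx (k : ℕ) : ℕ := if k = 0 then 0 else 2 * k - 1

theorem kummer_explicit (P : Pres O p z) [hp : Fact p.Prime] (hz : IsPrimitiveRoot z p)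
    {ι : Type*} [Fintype ι]
    (γ : ι → Oˣ) (hγ : ∀ g : Oˣ, ∃ e : ι → ℤ, g = ∏ i, γ i ^ e i) {r : ℕ}
    (hcard : Fintype.card ι = r + 1) (hr : 2 * r + 3 = p) (h5 : 5 ≤ p) (b : Fin (r + 1) → ℕ)
    (hb : ∀ j : Fin (r + 1), (((j : ℕ) + 1) * b j) % p = 1)
    (Mn : Fin (r + 1) → Fin (r + 1) → ℕ) (N : Matrix (Fin (r + 1)) (Fin (r + 1)) (ZMod p))
    (hM : ∀ j k : Fin (r + 1), entryFast p j (b j) (Sidx k) = Mn j k)
    (hN : N * (Matrix.of fun j k => (Mn j k : ZMod p)) = 1)
    (u : Oˣ) (hu : ∃ m : ℤ, (p : O) ∣ (u : O) - m) : ∃ v : Oˣ, u = v ^ p := by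
  let w : Fin (r + 1) → Oˣ := fun j =>
    { val := aeval z (Wp j)
      inv := aeval z (Vp p j (b j))
      val_inv := W_mul_V hz hp.out.one_lt (hb j)
      inv_val := by rw [mul_comm]; exact W_mul_V hz hp.out.one_lt (hb j) }
  refine P.kummer_of_matrix γ hγ hcard (fun k => Sidx k) ?_ w _ N ?_ hN u hu
  · intro k
    have := k.2
    simp only [Sidx]
    split_ifs <;> omega
  · intro j
    rw [P.vlog_apply _ _ (w j) (Wp j) (Vp p j (b j)) rfl rfl]
    congr 1
    funext k
    rw [taylor_entry, entry_eq_fast, hM]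
    rfl

end Explicit

end Fermat.Agent.KummerFLT
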